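import Mathlib
import Fermat.Agent.S28.Defs
import Fermat.Agent.S28.H48.Level

/-!
# S18 / B4 (helper24): the integral Hauptmodul numerators of levels 2 and 3

* `hauptNum2 = η(q)²⁴ / η(q²)²⁴ ∈ 1 + q ℤ⟦q⟧`, `hauptNum3 = η(q)¹² / η(q³)¹² ∈ 1 + q ℤ⟦q⟧`
  (`η`-quotients without the fractional power of `q`), so that `h_M = q⁻¹ · hauptNum_M`.
* the four Hauptmodul relations in `ℤ⟦q⟧` (with `j = q⁻¹ · jNum`):
  `jNum · g₂² = (g₂ + 256 q)³`, `jNum(q²) · g₂ = (g₂ + 16 q)³`,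
  `jNum · g₃³ = (g₃ + 27 q)(g₃ + 243 q)³`, `jNum(q³) · g₃ = (g₃ + 27 q)(g₃ + 3 q)³`.

Everything is derived from the landed `ℤ⟦q⟧`-identities `Fermat.Agent.S28.level2_a/b`,
`level3_a/b` (Sturm certificates of S28).
-/

set_option autoImplicit false

noncomputable section

namespace Fermat.Agent.S18.H24

open ModularCurve Fermat.Agent.S28

/-- `∏ (1 - qⁿ)¹²`. -/
def eta12 : PowerSeries ℤ := etaProd ^ 12

theorem constantCoeff_eta12 : PowerSeries.constantCoeff eta12 = 1 := by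
  rw [eta12, map_pow, constantCoeff_etaProd, one_pow]

/-- The inverse of `∏ (1 - qⁿ)¹²` in `ℤ⟦q⟧`. -/
def eta12Inv : PowerSeries ℤ := eta12.invOfUnit 1

theorem eta12_mul_inv : eta12 * eta12Inv = 1 :=
  PowerSeries.mul_invOfUnit _ _ (by rw [constantCoeff_eta12]; rfl)

theorem constantCoeff_eta12Inv : PowerSeries.constantCoeff eta12Inv = 1 := by
  have h := congrArg (PowerSeries.constantCoeff (R := ℤ)) eta12_mul_inv
  rwa [map_mul, constantCoeff_eta12, one_mul, map_one] at h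

theorem dedekindEtaUnit_eq_sq : dedekindEtaUnit = eta12 ^ 2 := by
  rw [dedekindEtaUnit, eta12, ← pow_mul]

/-- `g₂ = η(q)²⁴ / η(q²)²⁴` as an element of `1 + q ℤ⟦q⟧`. -/
def hauptNum2 : PowerSeries ℤ := dedekindEtaUnit * vPS 2 dedekindEtaUnitInv

/-- `g₃ = η(q)¹² / η(q³)¹²` as an element of `1 + q ℤ⟦q⟧`. -/
def hauptNum3 : PowerSeries ℤ := eta12 * vPS 3 eta12Inv

theorem constantCoeff_hauptNum2 : PowerSeries.constantCoeff hauptNum2 = 1 := by
  rw [hauptNum2, map_mul, PowerSeries.constantCoeff_expand, constantCoeff_dedekindEtaUnit,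
    constantCoeff_dedekindEtaUnitInv, one_mul]

theorem constantCoeff_hauptNum3 : PowerSeries.constantCoeff hauptNum3 = 1 := by
  rw [hauptNum3, map_mul, PowerSeries.constantCoeff_expand, constantCoeff_eta12,
    constantCoeff_eta12Inv, one_mul]

theorem hauptNum2_mul : hauptNum2 * vPS 2 dedekindEtaUnit = dedekindEtaUnit := by
  rw [hauptNum2, mul_assoc, ← map_mul, mul_comm dedekindEtaUnitInv, dedekindEtaUnit_mul_inv,
    map_one, mul_one]

theorem hauptNum3_mul : hauptNum3 * vPS 3 eta12 = eta12 := by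
  rw [hauptNum3, mul_assoc, ← map_mul, mul_comm eta12Inv, eta12_mul_inv, map_one, mul_one]

theorem vPS_deltaPS_eq (d : ℕ) [NeZero d] :
    vPS d deltaPS = PowerSeries.X ^ d * vPS d dedekindEtaUnit := by
  unfold vPS deltaPS
  rw [map_mul, PowerSeries.expand_X]

theorem jNum_mul_eta : jNum * dedekindEtaUnit = eisenstein4 ^ 3 := by
  rw [jNum, mul_assoc, mul_comm dedekindEtaUnitInv, dedekindEtaUnit_mul_inv, mul_one]

theorem vPS_ne_zero (d : ℕ) [NeZero d] {f : PowerSeries ℤ}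
    (hf : PowerSeries.constantCoeff f = 1) : vPS d f ≠ 0 := by
  intro h0
  have h := congrArg (PowerSeries.constantCoeff (R := ℤ)) h0
  rw [PowerSeries.constantCoeff_expand, hf, map_zero] at h
  exact one_ne_zero h

/-- **Level 2, first relation** in `ℤ⟦q⟧`: `j h² = (h + 256)³` for `j = q⁻¹ jNum`,
`h = q⁻¹ g₂`. -/
theorem level2_rel1 : jNum * hauptNum2 ^ 2 = (hauptNum2 + 256 * PowerSeries.X) ^ 3 := by
  have hX : (PowerSeries.X : PowerSeries ℤ) ^ 3 ≠ 0 := pow_ne_zero 3 PowerSeries.X_ne_zero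
  have ha' : eisenstein4 ^ 3 * dedekindEtaUnit * vPS 2 dedekindEtaUnit =
      (dedekindEtaUnit + 256 * PowerSeries.X * vPS 2 dedekindEtaUnit) ^ 3 := by
    apply mul_left_cancel₀ hX
    have ha := level2_a
    rw [vPS_deltaPS_eq 2, deltaPS] at ha
    linear_combination ha
  have hJ := jNum_mul_eta
  have hg := hauptNum2_mul
  have hne := vPS_ne_zero 2 constantCoeff_dedekindEtaUnit
  generalize hauptNum2 = g at hg ⊢
  generalize vPS 2 dedekindEtaUnit = η₂ at ha' hg hne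
  apply mul_right_cancel₀ (pow_ne_zero 3 hne)
  rw [← hg] at ha' hJ
  linear_combination ha' + (g * η₂ ^ 2) * hJ

/-- **Level 2, second relation** in `ℤ⟦q⟧`: `j(q²) h = (h + 16)³`. -/
theorem level2_rel2 : vPS 2 jNum * hauptNum2 = (hauptNum2 + 16 * PowerSeries.X) ^ 3 := by
  have hX : (PowerSeries.X : PowerSeries ℤ) ^ 3 ≠ 0 := pow_ne_zero 3 PowerSeries.X_ne_zero
  have hb' : (vPS 2 eisenstein4) ^ 3 * dedekindEtaUnit * vPS 2 dedekindEtaUnit =
      (dedekindEtaUnit + 16 * PowerSeries.X * vPS 2 dedekindEtaUnit) ^ 3 := by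
    apply mul_left_cancel₀ hX
    have hb := level2_b
    rw [vPS_deltaPS_eq 2, deltaPS] at hb
    linear_combination hb
  have hJ2 : vPS 2 jNum * vPS 2 dedekindEtaUnit = (vPS 2 eisenstein4) ^ 3 := by
    rw [← map_mul, jNum_mul_eta, map_pow]
  have hg := hauptNum2_mul
  have hne := vPS_ne_zero 2 constantCoeff_dedekindEtaUnit
  generalize hauptNum2 = g at hg ⊢
  generalize vPS 2 dedekindEtaUnit = η₂ at hb' hJ2 hg hne
  apply mul_right_cancel₀ (pow_ne_zero 3 hne)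
  rw [← hg] at hb'
  linear_combination hb' + (g * η₂ ^ 2) * hJ2

/-- Un-squaring in `ℤ⟦q⟧`: two series with constant coefficient `1` and equal squares are
equal. -/
theorem eq_of_sq_eq_sq_int {U V : PowerSeries ℤ} (h : U ^ 2 = V ^ 2)
    (hU : PowerSeries.constantCoeff U = 1) (hV : PowerSeries.constantCoeff V = 1) : U = V := by
  rcases sq_eq_sq_iff_eq_or_eq_neg.1 h with h | h
  · exact h
  · exfalso
    have h3 := congrArg (PowerSeries.constantCoeff (R := ℤ)) h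
    rw [hU, map_neg, hV] at h3
    omega

theorem level3_unsq_a :
    eta12 * vPS 3 eta12 * (eisenstein4 ^ 3 - 756 * PowerSeries.X * eta12 ^ 2
        - 19131876 * PowerSeries.X ^ 3 * vPS 3 eta12 ^ 2) =
      (eta12 ^ 2) ^ 2 + 196830 * PowerSeries.X ^ 2 * eta12 ^ 2 * vPS 3 eta12 ^ 2
        + 387420489 * PowerSeries.X ^ 4 * (vPS 3 eta12 ^ 2) ^ 2 := by
  have hX : (PowerSeries.X : PowerSeries ℤ) ^ 4 ≠ 0 := pow_ne_zero 4 PowerSeries.X_ne_zero
  have hE0 := constantCoeff_eta12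
  have hE30 : PowerSeries.constantCoeff (vPS 3 eta12) = 1 := by
    rw [PowerSeries.constantCoeff_expand, hE0]
  have hη3 : vPS 3 dedekindEtaUnit = vPS 3 eta12 ^ 2 := by
    rw [dedekindEtaUnit_eq_sq]
    exact map_pow (PowerSeries.expand 3 (NeZero.ne 3)) eta12 2
  refine eq_of_sq_eq_sq_int ?_ ?_ ?_
  · apply mul_left_cancel₀ hX
    have ha := level3_a
    rw [vPS_deltaPS_eq 3, deltaPS, hη3, dedekindEtaUnit_eq_sq] at ha
    linear_combination ha
  · simp [hE0, hE30]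
  · simp [hE0, hE30]

theorem level3_unsq_b :
    eta12 * vPS 3 eta12 * ((vPS 3 eisenstein4) ^ 3 - 36 * PowerSeries.X * eta12 ^ 2
        - 756 * PowerSeries.X ^ 3 * vPS 3 eta12 ^ 2) =
      (eta12 ^ 2) ^ 2 + 270 * PowerSeries.X ^ 2 * eta12 ^ 2 * vPS 3 eta12 ^ 2
        + 729 * PowerSeries.X ^ 4 * (vPS 3 eta12 ^ 2) ^ 2 := by
  have hX : (PowerSeries.X : PowerSeries ℤ) ^ 4 ≠ 0 := pow_ne_zero 4 PowerSeries.X_ne_zero
  have hE0 := constantCoeff_eta12
  have hE30 : PowerSeries.constantCoeff (vPS 3 eta12) = 1 := by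
    rw [PowerSeries.constantCoeff_expand, hE0]
  have hη3 : vPS 3 dedekindEtaUnit = vPS 3 eta12 ^ 2 := by
    rw [dedekindEtaUnit_eq_sq]
    exact map_pow (PowerSeries.expand 3 (NeZero.ne 3)) eta12 2
  refine eq_of_sq_eq_sq_int ?_ ?_ ?_
  · apply mul_left_cancel₀ hX
    have hb := level3_b
    rw [vPS_deltaPS_eq 3, deltaPS, hη3, dedekindEtaUnit_eq_sq] at hb
    linear_combination hb
  · simp [hE0, hE30]
  · simp [hE0, hE30]

/-- **Level 3, first relation** in `ℤ⟦q⟧`: `j h³ = (h + 27)(h + 243)³` for `j = q⁻¹ jNum`,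
`h = q⁻¹ g₃`. -/
theorem level3_rel1 :
    jNum * hauptNum3 ^ 3 =
      (hauptNum3 + 27 * PowerSeries.X) * (hauptNum3 + 243 * PowerSeries.X) ^ 3 := by
  have hA := level3_unsq_a
  have hJ : jNum * eta12 ^ 2 = eisenstein4 ^ 3 := by
    rw [← dedekindEtaUnit_eq_sq]; exact jNum_mul_eta
  have hg := hauptNum3_mul
  have hne := vPS_ne_zero 3 constantCoeff_eta12
  generalize hauptNum3 = g at hg ⊢
  generalize vPS 3 eta12 = E₃ at hA hg hne
  apply mul_right_cancel₀ (pow_ne_zero 4 hne)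
  rw [← hg] at hA hJ
  linear_combination hA + (g * E₃ ^ 2) * hJ

/-- **Level 3, second relation** in `ℤ⟦q⟧`: `j(q³) h = (h + 27)(h + 3)³`. -/
theorem level3_rel2 :
    vPS 3 jNum * hauptNum3 =
      (hauptNum3 + 27 * PowerSeries.X) * (hauptNum3 + 3 * PowerSeries.X) ^ 3 := by
  have hB := level3_unsq_b
  have hJ3 : vPS 3 jNum * vPS 3 eta12 ^ 2 = (vPS 3 eisenstein4) ^ 3 := by
    rw [← map_pow, ← dedekindEtaUnit_eq_sq, ← map_mul, jNum_mul_eta, map_pow]
  have hg := hauptNum3_mul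
  have hne := vPS_ne_zero 3 constantCoeff_eta12
  generalize hauptNum3 = g at hg ⊢
  generalize vPS 3 eta12 = E₃ at hB hJ3 hg hne
  apply mul_right_cancel₀ (pow_ne_zero 4 hne)
  rw [← hg] at hB
  linear_combination hB + (g * E₃ ^ 2) * hJ3

end Fermat.Agent.S18.H24
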