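import Mathlib
import Fermat.Prelude.Def_ModularCurve_X0ModL
import Fermat.Agent.S18.H24.HauptZ

/-!
# S18 / B4 (helper24): the Hauptmoduln `h₂`, `h₃` as Laurent series over any commutative ring

For a commutative ring `R`:

* `haupt2 R = q⁻¹ · g₂`, `haupt3 R = q⁻¹ · g₃ ∈ R((q))`, the images of the integral series
  `hauptNum2`, `hauptNum3` (so they commute with every coefficient map: `coeffMap_haupt2/3`);
* the four Hauptmodul relations in `R((q))`:
  `j · h₂² = (h₂ + 256)³`, `j(q²) · h₂ = (h₂ + 16)³`,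
  `j · h₃³ = (h₃ + 27)(h₃ + 243)³`, `j(q³) · h₃ = (h₃ + 27)(h₃ + 3)³`;
* the level-raised versions `hauptX2 R n = h₂(qⁿ)`, `hauptX3 R n = h₃(qⁿ)` with
  `j(qⁿ) · x² = (x + 256)³`, `j(q²ⁿ) · x = (x + 16)³` (resp. level 3).
-/

set_option autoImplicit false

noncomputable section

namespace Fermat.Agent.S18.H24

open ModularCurve

section QLead

variable {R : Type*} [CommRing R]

/-- The Laurent series `q ^ a * f`, for a power series `f` over a commutative ring. -/
def qlead (a : ℤ) (f : PowerSeries R) : LaurentSeries R :=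
  HahnSeries.single a 1 * HahnSeries.ofPowerSeries ℤ R f

theorem qlead_coeff (a : ℤ) (f : PowerSeries R) (m : ℤ) :
    (qlead a f).coeff m = (HahnSeries.ofPowerSeries ℤ R f).coeff (m - a) := by
  rw [qlead, HahnSeries.coeff_single_mul, one_mul]

theorem qlead_coeff_self (a : ℤ) (f : PowerSeries R) :
    (qlead a f).coeff a = PowerSeries.constantCoeff f := by
  rw [qlead_coeff, sub_self, show (0 : ℤ) = ((0 : ℕ) : ℤ) from rfl,
    HahnSeries.ofPowerSeries_apply_coeff, PowerSeries.coeff_zero_eq_constantCoeff]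

theorem qlead_coeff_of_lt (a : ℤ) (f : PowerSeries R) {m : ℤ} (hm : m < a) :
    (qlead a f).coeff m = 0 := by
  rw [qlead_coeff]
  exact ofPowerSeries_coeff_of_neg _ (by omega)

theorem qlead_mul (a b : ℤ) (f g : PowerSeries R) :
    qlead a f * qlead b g = qlead (a + b) (f * g) := by
  have h1 : (HahnSeries.single (a + b) (1 : R) : LaurentSeries R) =
      HahnSeries.single a 1 * HahnSeries.single b 1 := by
    rw [HahnSeries.single_mul_single, one_mul]
  unfold qlead
  rw [map_mul, h1]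
  ring

theorem qlead_pow (a : ℤ) (f : PowerSeries R) (n : ℕ) :
    qlead a f ^ n = qlead ((n : ℤ) * a) (f ^ n) := by
  unfold qlead
  rw [mul_pow, HahnSeries.single_pow, one_pow, map_pow, nsmul_eq_mul]

theorem qlead_add (a : ℤ) (f g : PowerSeries R) : qlead a (f + g) = qlead a f + qlead a g := by
  unfold qlead
  rw [map_add, mul_add]

theorem qlead_neg_one_mul_X (f : PowerSeries R) :
    qlead (-1) (f * PowerSeries.X) = HahnSeries.ofPowerSeries ℤ R f := by
  unfold qlead
  rw [map_mul, HahnSeries.ofPowerSeries_X, mul_left_comm, HahnSeries.single_mul_single]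
  norm_num

theorem qlead_neg_one_ofNat_mul_X (n : ℕ) [n.AtLeastTwo] :
    qlead (-1) ((OfNat.ofNat n : PowerSeries R) * PowerSeries.X) =
      (OfNat.ofNat n : LaurentSeries R) := by
  rw [qlead_neg_one_mul_X, map_ofNat]

theorem coeffMap_qlead {S : Type*} [CommRing S] (φ : R →+* S) (a : ℤ) (f : PowerSeries R) :
    coeffMap φ (qlead a f) = qlead a (f.map φ) := by
  unfold qlead
  rw [map_mul, coeffMap_single, map_one, coeffMap_ofPowerSeries]

theorem qExpand_ofPowerSeries' (N : ℕ) [NeZero N] (f : PowerSeries R) :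
    qExpand R N (HahnSeries.ofPowerSeries ℤ R f) =
      HahnSeries.ofPowerSeries ℤ R (PowerSeries.expand N (NeZero.ne N) f) := by
  ext k
  by_cases hk : (N : ℤ) ∣ k
  · obtain ⟨m, rfl⟩ := hk
    rw [qExpand_coeff_mul]
    rcases lt_or_ge m 0 with hm | hm
    · rw [ofPowerSeries_coeff_of_neg _ hm, ofPowerSeries_coeff_of_neg _ (by
        have : (0 : ℤ) < N := by exact_mod_cast Nat.pos_of_ne_zero (NeZero.ne N)
        nlinarith)]
    · lift m to ℕ using hm
      rw [HahnSeries.ofPowerSeries_apply_coeff, show (N : ℤ) * (m : ℤ) = ((N * m : ℕ) : ℤ) by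
        push_cast; ring, HahnSeries.ofPowerSeries_apply_coeff, PowerSeries.coeff_expand,
        if_pos (dvd_mul_right N m), Nat.mul_div_cancel_left m (Nat.pos_of_ne_zero (NeZero.ne N))]
  · rw [qExpand_coeff_of_not_dvd N _ hk]
    rcases lt_or_ge k 0 with hk0 | hk0
    · rw [ofPowerSeries_coeff_of_neg _ hk0]
    · lift k to ℕ using hk0
      rw [HahnSeries.ofPowerSeries_apply_coeff, PowerSeries.coeff_expand, if_neg]
      intro hdvd
      exact hk (by exact_mod_cast hdvd)

theorem qExpand_qlead (N : ℕ) [NeZero N] (a : ℤ) (f : PowerSeries R) :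
    qExpand R N (qlead a f) = qlead ((N : ℤ) * a) (PowerSeries.expand N (NeZero.ne N) f) := by
  unfold qlead
  rw [map_mul, qExpand_single, qExpand_ofPowerSeries']

theorem jqModC_eq_qlead : jqModC R = qlead (-1) (PowerSeries.map (Int.castRingHom R) jNum) := rfl

theorem map_intCast_expand (d : ℕ) (hd : d ≠ 0) (f : PowerSeries ℤ) :
    PowerSeries.map (Int.castRingHom R) (PowerSeries.expand d hd f) =
      PowerSeries.expand d hd (PowerSeries.map (Int.castRingHom R) f) :=
  PowerSeries.map_expand d hd _ f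

end QLead

section Haupt

variable (R : Type*) [CommRing R]

/-- The level-2 Hauptmodul `h₂ = η(q)²⁴/η(q²)²⁴ = q⁻¹ - 24 + ⋯` in `R((q))`. -/
def haupt2 : LaurentSeries R := qlead (-1) (PowerSeries.map (Int.castRingHom R) hauptNum2)

/-- The level-3 Hauptmodul `h₃ = η(q)¹²/η(q³)¹² = q⁻¹ - 12 + ⋯` in `R((q))`. -/
def haupt3 : LaurentSeries R := qlead (-1) (PowerSeries.map (Int.castRingHom R) hauptNum3)

variable {R} in
theorem coeffMap_haupt2 {S : Type*} [CommRing S] (φ : R →+* S) :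
    coeffMap φ (haupt2 R) = haupt2 S := by
  rw [haupt2, coeffMap_qlead,
    ← RingHom.comp_apply (PowerSeries.map φ) (PowerSeries.map (Int.castRingHom R)),
    ← PowerSeries.map_comp, RingHom.ext_int (φ.comp (Int.castRingHom R)) (Int.castRingHom S)]
  rfl

variable {R} in
theorem coeffMap_haupt3 {S : Type*} [CommRing S] (φ : R →+* S) :
    coeffMap φ (haupt3 R) = haupt3 S := by
  rw [haupt3, coeffMap_qlead,
    ← RingHom.comp_apply (PowerSeries.map φ) (PowerSeries.map (Int.castRingHom R)),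
    ← PowerSeries.map_comp, RingHom.ext_int (φ.comp (Int.castRingHom R)) (Int.castRingHom S)]
  rfl

theorem haupt2_coeff_neg_one : (haupt2 R).coeff (-1) = 1 := by
  rw [haupt2, qlead_coeff_self, ← PowerSeries.coeff_zero_eq_constantCoeff, PowerSeries.coeff_map,
    PowerSeries.coeff_zero_eq_constantCoeff, constantCoeff_hauptNum2]
  simp

theorem haupt3_coeff_neg_one : (haupt3 R).coeff (-1) = 1 := by
  rw [haupt3, qlead_coeff_self, ← PowerSeries.coeff_zero_eq_constantCoeff, PowerSeries.coeff_map,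
    PowerSeries.coeff_zero_eq_constantCoeff, constantCoeff_hauptNum3]
  simp

theorem haupt2_coeff_of_lt {m : ℤ} (hm : m < -1) : (haupt2 R).coeff m = 0 :=
  qlead_coeff_of_lt _ _ hm

theorem haupt3_coeff_of_lt {m : ℤ} (hm : m < -1) : (haupt3 R).coeff m = 0 :=
  qlead_coeff_of_lt _ _ hm

/-- `j · h₂² = (h₂ + 256)³` in `R((q))`. -/
theorem haupt2_rel1 : jqModC R * haupt2 R ^ 2 = (haupt2 R + 256) ^ 3 := by
  have h := congrArg (PowerSeries.map (Int.castRingHom R)) level2_rel1
  simp only [map_mul, map_pow, map_add, map_ofNat, PowerSeries.map_X] at h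
  rw [jqModC_eq_qlead, haupt2, ← qlead_neg_one_ofNat_mul_X (R := R) 256, ← qlead_add, qlead_pow,
    qlead_pow, qlead_mul, h]
  norm_num

/-- `j(q²) · h₂ = (h₂ + 16)³` in `R((q))`. -/
theorem haupt2_rel2 : qExpand R 2 (jqModC R) * haupt2 R = (haupt2 R + 16) ^ 3 := by
  have h := congrArg (PowerSeries.map (Int.castRingHom R)) level2_rel2
  simp only [map_mul, map_pow, map_add, map_ofNat, PowerSeries.map_X] at h
  rw [map_intCast_expand] at h
  rw [jqModC_eq_qlead, qExpand_qlead, haupt2, ← qlead_neg_one_ofNat_mul_X (R := R) 16,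
    ← qlead_add, qlead_pow, qlead_mul, h]
  norm_num

/-- `j · h₃³ = (h₃ + 27)(h₃ + 243)³` in `R((q))`. -/
theorem haupt3_rel1 : jqModC R * haupt3 R ^ 3 = (haupt3 R + 27) * (haupt3 R + 243) ^ 3 := by
  have h := congrArg (PowerSeries.map (Int.castRingHom R)) level3_rel1
  simp only [map_mul, map_pow, map_add, map_ofNat, PowerSeries.map_X] at h
  rw [jqModC_eq_qlead, haupt3, ← qlead_neg_one_ofNat_mul_X (R := R) 27,
    ← qlead_neg_one_ofNat_mul_X (R := R) 243, ← qlead_add, ← qlead_add, qlead_pow,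
    qlead_pow, qlead_mul, qlead_mul, h]

/-- `j(q³) · h₃ = (h₃ + 27)(h₃ + 3)³` in `R((q))`. -/
theorem haupt3_rel2 :
    qExpand R 3 (jqModC R) * haupt3 R = (haupt3 R + 27) * (haupt3 R + 3) ^ 3 := by
  have h := congrArg (PowerSeries.map (Int.castRingHom R)) level3_rel2
  simp only [map_mul, map_pow, map_add, map_ofNat, PowerSeries.map_X] at h
  rw [map_intCast_expand] at h
  rw [jqModC_eq_qlead, qExpand_qlead, haupt3, ← qlead_neg_one_ofNat_mul_X (R := R) 27,
    ← qlead_neg_one_ofNat_mul_X (R := R) 3, ← qlead_add, ← qlead_add, qlead_pow,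
    qlead_mul, qlead_mul, h]
  norm_num

/-! ### Level raising: `x = h_M(qⁿ)` -/

/-- `h₂(qⁿ)`: the Hauptmodul base function at level `2n`. -/
def hauptX2 (n : ℕ) [NeZero n] : LaurentSeries R := qExpand R n (haupt2 R)

/-- `h₃(qⁿ)`: the Hauptmodul base function at level `3n`. -/
def hauptX3 (n : ℕ) [NeZero n] : LaurentSeries R := qExpand R n (haupt3 R)

variable {R} in
theorem coeffMap_hauptX2 {S : Type*} [CommRing S] (φ : R →+* S) (n : ℕ) [NeZero n] :
    coeffMap φ (hauptX2 R n) = hauptX2 S n := by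
  rw [hauptX2, coeffMap_qExpand, coeffMap_haupt2, hauptX2]

variable {R} in
theorem coeffMap_hauptX3 {S : Type*} [CommRing S] (φ : R →+* S) (n : ℕ) [NeZero n] :
    coeffMap φ (hauptX3 R n) = hauptX3 S n := by
  rw [hauptX3, coeffMap_qExpand, coeffMap_haupt3, hauptX3]

/-- `j(qⁿ) · x² = (x + 256)³` for `x = h₂(qⁿ)`. -/
theorem hauptX2_rel1 (n : ℕ) [NeZero n] :
    jqNModC R n * hauptX2 R n ^ 2 = (hauptX2 R n + 256) ^ 3 := by
  have h := congrArg (qExpand R n) (haupt2_rel1 R)
  simp only [map_mul, map_pow, map_add, map_ofNat] at h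
  exact h

/-- `j(q^N') · x = (x + 16)³` for `x = h₂(qⁿ)`, `N' = n * 2`. -/
theorem hauptX2_rel2 (n N' : ℕ) [NeZero n] [NeZero N'] (hN' : N' = n * 2) :
    jqNModC R N' * hauptX2 R n = (hauptX2 R n + 16) ^ 3 := by
  have h := congrArg (qExpand R n) (haupt2_rel2 R)
  simp only [map_mul, map_pow, map_add, map_ofNat] at h
  haveI : NeZero (n * 2) := ⟨hN' ▸ NeZero.ne N'⟩
  rw [qExpand_qExpand] at h
  rw [jqNModC, qExpand_congr hN']
  exact h

/-- `j(qⁿ) · x³ = (x + 27)(x + 243)³` for `x = h₃(qⁿ)`. -/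
theorem hauptX3_rel1 (n : ℕ) [NeZero n] :
    jqNModC R n * hauptX3 R n ^ 3 = (hauptX3 R n + 27) * (hauptX3 R n + 243) ^ 3 := by
  have h := congrArg (qExpand R n) (haupt3_rel1 R)
  simp only [map_mul, map_pow, map_add, map_ofNat] at h
  exact h

/-- `j(q^N') · x = (x + 27)(x + 3)³` for `x = h₃(qⁿ)`, `N' = n * 3`. -/
theorem hauptX3_rel2 (n N' : ℕ) [NeZero n] [NeZero N'] (hN' : N' = n * 3) :
    jqNModC R N' * hauptX3 R n = (hauptX3 R n + 27) * (hauptX3 R n + 3) ^ 3 := by
  have h := congrArg (qExpand R n) (haupt3_rel2 R)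
  simp only [map_mul, map_pow, map_add, map_ofNat] at h
  haveI : NeZero (n * 3) := ⟨hN' ▸ NeZero.ne N'⟩
  rw [qExpand_qExpand] at h
  rw [jqNModC, qExpand_congr hN']
  exact h

end Haupt

end Fermat.Agent.S18.H24
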