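import Mathlib
import Fermat.Prelude.Def_ModularCurve_ArithmeticGalois
import Fermat.Agent.S28.H55.FinalB
import Fermat.Agent.S18.H24.HauptRel

/-!
# S18 / B4 (helper24): the Hauptmodul base functions lie in the function fields

For a field `K` with `2 ≠ 0` (resp. `3 ≠ 0`) and `N' = n * 2` (resp. `N' = n * 3`):

* `haupt2_mem_adjoin`, `haupt3_mem_adjoin`: `h_M ∈ K(j, j(q^M))`;
* `hauptX2_mem_full`, `hauptX3_mem_full`: `x = h_M(qⁿ) ∈ modularFunctionFieldFullC K N'`;
* `hauptX2_mem_bar`, `hauptX3_mem_bar`: `x ∈ modularFunctionFieldBar N'` over `ℚ̄`;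
* `transcendental_hauptX2`, `transcendental_hauptX3`: `x` is transcendental over `K`
  (any field `K`).
-/

set_option autoImplicit false

noncomputable section

namespace Fermat.Agent.S18.H24

open ModularCurve IntermediateField Fermat.Agent.S28

section Field

variable (K : Type*) [Field K]

theorem qlead_eq_lead (a : ℤ) (f : PowerSeries K) : qlead a f = H55.lead a f := rfl

theorem constantCoeff_map_jNum :
    PowerSeries.constantCoeff (PowerSeries.map (Int.castRingHom K) jNum) = 1 := by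
  rw [← PowerSeries.coeff_zero_eq_constantCoeff, PowerSeries.coeff_map,
    PowerSeries.coeff_zero_eq_constantCoeff, constantCoeff_jNum]
  simp

theorem constantCoeff_map_hauptNum2 :
    PowerSeries.constantCoeff (PowerSeries.map (Int.castRingHom K) hauptNum2) = 1 := by
  rw [← PowerSeries.coeff_zero_eq_constantCoeff, PowerSeries.coeff_map,
    PowerSeries.coeff_zero_eq_constantCoeff, constantCoeff_hauptNum2]
  simp

theorem constantCoeff_map_hauptNum3 :
    PowerSeries.constantCoeff (PowerSeries.map (Int.castRingHom K) hauptNum3) = 1 := by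
  rw [← PowerSeries.coeff_zero_eq_constantCoeff, PowerSeries.coeff_map,
    PowerSeries.coeff_zero_eq_constantCoeff, constantCoeff_hauptNum3]
  simp

/-- `h₂ ∈ K(j, j(q²))` when `2 ≠ 0` in `K`. -/
theorem haupt2_mem_adjoin (h2 : (2 : K) ≠ 0) :
    haupt2 K ∈ IntermediateField.adjoin K {jqModC K, qExpand K 2 (jqModC K)} := by
  refine H55.mem_adjoin_level_two_laurent h2
    (PowerSeries.map (Int.castRingHom K) jNum)
    (PowerSeries.expand 2 (NeZero.ne 2) (PowerSeries.map (Int.castRingHom K) jNum))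
    (constantCoeff_map_jNum K)
    (by rw [PowerSeries.constantCoeff_expand, constantCoeff_map_jNum])
    (jqModC K) (qExpand K 2 (jqModC K)) (haupt2 K) rfl ?_ (haupt2_rel1 K) (haupt2_rel2 K)
  rw [jqModC_eq_qlead, qExpand_qlead]
  rfl

/-- `h₃ ∈ K(j, j(q³))` when `3 ≠ 0` in `K`. -/
theorem haupt3_mem_adjoin (h3 : (3 : K) ≠ 0) :
    haupt3 K ∈ IntermediateField.adjoin K {jqModC K, qExpand K 3 (jqModC K)} := by
  refine Fermat.Agent.S28.H24.mem_adjoin_level_three_laurent h3
    (PowerSeries.map (Int.castRingHom K) jNum)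
    (PowerSeries.expand 3 (NeZero.ne 3) (PowerSeries.map (Int.castRingHom K) jNum))
    (constantCoeff_map_jNum K)
    (by rw [PowerSeries.constantCoeff_expand, constantCoeff_map_jNum])
    (jqModC K) (qExpand K 3 (jqModC K)) (haupt3 K) rfl ?_ (haupt3_rel1 K) (haupt3_rel2 K)
  rw [jqModC_eq_qlead, qExpand_qlead]
  rfl

/-- If `y ∈ K(j, j(q^M))` then `y(qⁿ) ∈ modularFunctionFieldFullC K N'` for `N' = n * M`. -/
theorem qExpand_mem_full_of_mem_adjoin (M n N' : ℕ) [NeZero M] [NeZero n] [NeZero N']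
    (hN' : N' = n * M) {y : LaurentSeries K}
    (hy : y ∈ IntermediateField.adjoin K {jqModC K, qExpand K M (jqModC K)}) :
    qExpand K n y ∈ modularFunctionFieldFullC K N' := by
  have hmem : qExpandAlgHomC K n y ∈
      (IntermediateField.adjoin K {jqModC K, qExpand K M (jqModC K)}).map (qExpandAlgHomC K n) :=
    ⟨y, hy, rfl⟩
  rw [IntermediateField.adjoin_map] at hmem
  have hle : IntermediateField.adjoin K
      ((qExpandAlgHomC K n) '' {jqModC K, qExpand K M (jqModC K)}) ≤
        modularFunctionFieldFullC K N' := by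
    rw [modularFunctionFieldFullC, IntermediateField.adjoin_le_iff]
    rintro z ⟨w, hw, rfl⟩
    rcases hw with rfl | hw
    · exact IntermediateField.subset_adjoin K _ ⟨n, inferInstance, ⟨M, hN'⟩, rfl⟩
    · rw [Set.mem_singleton_iff] at hw
      subst hw
      haveI : NeZero (n * M) := ⟨hN' ▸ NeZero.ne N'⟩
      refine IntermediateField.subset_adjoin K _ ⟨n * M, inferInstance, ⟨1, by rw [hN', mul_one]⟩, ?_⟩
      rw [qExpandAlgHomC_apply, qExpand_qExpand]
  exact hle hmem

/-- `x = h₂(qⁿ) ∈ modularFunctionFieldFullC K N'` for `N' = n * 2`, when `2 ≠ 0` in `K`. -/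
theorem hauptX2_mem_full (h2 : (2 : K) ≠ 0) (n N' : ℕ) [NeZero n] [NeZero N'] (hN' : N' = n * 2) :
    hauptX2 K n ∈ modularFunctionFieldFullC K N' :=
  qExpand_mem_full_of_mem_adjoin K 2 n N' hN' (haupt2_mem_adjoin K h2)

/-- `x = h₃(qⁿ) ∈ modularFunctionFieldFullC K N'` for `N' = n * 3`, when `3 ≠ 0` in `K`. -/
theorem hauptX3_mem_full (h3 : (3 : K) ≠ 0) (n N' : ℕ) [NeZero n] [NeZero N'] (hN' : N' = n * 3) :
    hauptX3 K n ∈ modularFunctionFieldFullC K N' :=
  qExpand_mem_full_of_mem_adjoin K 3 n N' hN' (haupt3_mem_adjoin K h3)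

theorem hauptX2_eq_lead (n : ℕ) [NeZero n] :
    hauptX2 K n = H55.lead ((n : ℤ) * (-1))
      (PowerSeries.expand n (NeZero.ne n) (PowerSeries.map (Int.castRingHom K) hauptNum2)) := by
  rw [hauptX2, haupt2, qExpand_qlead]
  rfl

theorem hauptX3_eq_lead (n : ℕ) [NeZero n] :
    hauptX3 K n = H55.lead ((n : ℤ) * (-1))
      (PowerSeries.expand n (NeZero.ne n) (PowerSeries.map (Int.castRingHom K) hauptNum3)) := by
  rw [hauptX3, haupt3, qExpand_qlead]
  rfl

/-- `x = h₂(qⁿ)` is transcendental over `K` (it has a pole at `q = 0`). -/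
theorem transcendental_hauptX2 (n : ℕ) [NeZero n] : Transcendental K (hauptX2 K n) := by
  rw [hauptX2_eq_lead]
  refine H55.transcendental_lead ?_ _ ?_
  · have : (0 : ℤ) < n := by exact_mod_cast Nat.pos_of_ne_zero (NeZero.ne n)
    linarith
  · rw [PowerSeries.constantCoeff_expand, constantCoeff_map_hauptNum2]

/-- `x = h₃(qⁿ)` is transcendental over `K` (it has a pole at `q = 0`). -/
theorem transcendental_hauptX3 (n : ℕ) [NeZero n] : Transcendental K (hauptX3 K n) := by
  rw [hauptX3_eq_lead]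
  refine H55.transcendental_lead ?_ _ ?_
  · have : (0 : ℤ) < n := by exact_mod_cast Nat.pos_of_ne_zero (NeZero.ne n)
    linarith
  · rw [PowerSeries.constantCoeff_expand, constantCoeff_map_hauptNum3]

theorem hauptX2_ne_zero (n : ℕ) [NeZero n] : hauptX2 K n ≠ 0 := fun h =>
  transcendental_hauptX2 K n (h ▸ isAlgebraic_zero)

theorem hauptX3_ne_zero (n : ℕ) [NeZero n] : hauptX3 K n ≠ 0 := fun h =>
  transcendental_hauptX3 K n (h ▸ isAlgebraic_zero)

end Field

section Bar

/-- `x = h₂(qⁿ)` lies in the function field of `X₀(N')` over `ℚ̄`, `N' = n * 2`. -/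
theorem hauptX2_mem_bar (n N' : ℕ) [NeZero n] [NeZero N'] (hN' : N' = n * 2) :
    hauptX2 (AlgebraicClosure ℚ) n ∈ modularFunctionFieldBar N' := by
  have h := hauptX2_mem_full ℚ (by norm_num) n N' hN'
  rw [modularFunctionFieldFullC_rat] at h
  have h' := coeffEmb_mem_laurentBaseChange (AlgebraicClosure ℚ) h
  rwa [coeffEmb, coeffMap_hauptX2] at h'

/-- `x = h₃(qⁿ)` lies in the function field of `X₀(N')` over `ℚ̄`, `N' = n * 3`. -/
theorem hauptX3_mem_bar (n N' : ℕ) [NeZero n] [NeZero N'] (hN' : N' = n * 3) :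
    hauptX3 (AlgebraicClosure ℚ) n ∈ modularFunctionFieldBar N' := by
  have h := hauptX3_mem_full ℚ (by norm_num) n N' hN'
  rw [modularFunctionFieldFullC_rat] at h
  have h' := coeffEmb_mem_laurentBaseChange (AlgebraicClosure ℚ) h
  rwa [coeffEmb, coeffMap_hauptX3] at h'

end Bar

end Fermat.Agent.S18.H24
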