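import Mathlib
import Fermat.Agent.S18.H24.HauptMem

/-!
# S18 / B4 (helper24): the degree of `K(x)` over `K(j_{N'})` for the Hauptmodul base `x`

* `relfinrank_adjoin_div`: for `x` transcendental over `K` and coprime `p, q ∈ K[X]`, `q` monic:
  `[K(x) : K(p(x)/q(x))] = max (deg p) (deg q)` (from Mathlib's
  `RatFunc.finrank_eq_max_natDegree`).
* `relfinrank_hauptX2 : [K(x) : K(j_{N'})] = 3` for `x = h₂(qⁿ)`, `N' = n * 2`, `2 ≠ 0` in `K`;
* `relfinrank_hauptX3 : [K(x) : K(j_{N'})] = 4` for `x = h₃(qⁿ)`, `N' = n * 3`, `3 ≠ 0` in `K`;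
* the towers `[F : K(x)] * 3 = [F : K(j_{N'})]` inside `F = modularFunctionFieldFullC K N'`.
-/

set_option autoImplicit false

noncomputable section

namespace Fermat.Agent.S18.H24

open ModularCurve IntermediateField Polynomial

section General

variable {K L : Type*} [Field K] [Field L] [Algebra K L]

/-- Numerator and denominator of `p / q` for coprime `p`, `q` with `q` monic. -/
theorem ratFunc_num_denom_of_isCoprime {p q : K[X]} (hq : q.Monic) (hpq : IsCoprime p q) :
    (algebraMap K[X] (RatFunc K) p / algebraMap K[X] (RatFunc K) q).num = p ∧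
      (algebraMap K[X] (RatFunc K) p / algebraMap K[X] (RatFunc K) q).denom = q := by
  set r : RatFunc K := algebraMap K[X] (RatFunc K) p / algebraMap K[X] (RatFunc K) q with hr
  have hq0 : q ≠ 0 := hq.ne_zero
  have h : r.num * q = p * r.denom := (RatFunc.num_mul_eq_mul_denom_iff hq0).mpr rfl
  have hc : IsCoprime r.num r.denom := r.isCoprime_num_denom
  have h1 : q ∣ r.denom := by
    have : q ∣ p * r.denom := ⟨r.num, by rw [← h, mul_comm]⟩
    exact hpq.symm.dvd_of_dvd_mul_left this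
  have h2 : r.denom ∣ q := by
    have : r.denom ∣ r.num * q := ⟨p, by rw [h, mul_comm]⟩
    exact hc.symm.dvd_of_dvd_mul_left this
  have hden : r.denom = q :=
    Polynomial.eq_of_monic_of_associated r.monic_denom hq (associated_of_dvd_dvd h2 h1)
  refine ⟨?_, hden⟩
  rw [hden] at h
  exact mul_right_cancel₀ hq0 h

/-- **Degree of a rational function** (Lüroth-type): for `x` transcendental over `K` and coprime
`p, q ∈ K[X]` with `q` monic, `[K(x) : K(p(x)/q(x))] = max (deg p) (deg q)`. -/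
theorem relfinrank_adjoin_div (x : L) (hx : Transcendental K x) {p q : K[X]} (hq : q.Monic)
    (hpq : IsCoprime p q) :
    IntermediateField.relfinrank K⟮aeval x p / aeval x q⟯ K⟮x⟯ =
      max p.natDegree q.natDegree := by
  set r : RatFunc K := algebraMap K[X] (RatFunc K) p / algebraMap K[X] (RatFunc K) q with hr
  obtain ⟨hnum, hden⟩ := ratFunc_num_denom_of_isCoprime hq hpq
  set e := RatFunc.algEquivOfTranscendental x hx with he
  set ι : RatFunc K →ₐ[K] L := (K⟮x⟯).val.comp e.toAlgHom with hι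
  have hιr : ι r = aeval x p / aeval x q := by
    have := RatFunc.algEquivOfTranscendental_apply x hx r
    rw [hnum, hden] at this
    exact this
  have hmap1 : (K⟮r⟯ : IntermediateField K (RatFunc K)).map ι = K⟮aeval x p / aeval x q⟯ := by
    rw [IntermediateField.adjoin_map, Set.image_singleton, hιr]
  have hmap2 : (⊤ : IntermediateField K (RatFunc K)).map ι = K⟮x⟯ := by
    rw [← AlgHom.fieldRange_eq_map]
    apply le_antisymm
    · rintro _ ⟨u, rfl⟩
      exact (e u).2
    · intro y hy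
      exact ⟨e.symm ⟨y, hy⟩, by simp [hι]⟩
  rw [← hmap1, ← hmap2, IntermediateField.relfinrank_map_map, IntermediateField.relfinrank_top_right,
    RatFunc.finrank_eq_max_natDegree, hnum, hden]

end General

section Haupt

variable (K : Type*) [Field K]

theorem isCoprime_level2 (h2 : (2 : K) ≠ 0) : IsCoprime ((X + C (16 : K)) ^ 3) (X : K[X]) := by
  have h16 : (16 : K) ≠ 0 := by
    rw [show (16 : K) = 2 ^ 4 by norm_num]
    exact pow_ne_zero 4 h2
  refine IsCoprime.pow_left ?_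
  refine ⟨C (16 : K)⁻¹, -C (16 : K)⁻¹, ?_⟩
  have : C (16 : K)⁻¹ * C (16 : K) = 1 := by
    rw [← C_mul, inv_mul_cancel₀ h16, C_1]
  linear_combination this

theorem isCoprime_level3 (h3 : (3 : K) ≠ 0) :
    IsCoprime ((X + C (27 : K)) * (X + C (3 : K)) ^ 3) (X : K[X]) := by
  have h27 : (27 : K) ≠ 0 := by
    rw [show (27 : K) = 3 ^ 3 by norm_num]
    exact pow_ne_zero 3 h3
  have key : ∀ c : K, c ≠ 0 → IsCoprime (X + C c) (X : K[X]) := by
    intro c hc
    refine ⟨C c⁻¹, -C c⁻¹, ?_⟩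
    have : C c⁻¹ * C c = 1 := by
      rw [← C_mul, inv_mul_cancel₀ hc, C_1]
    linear_combination this
  exact IsCoprime.mul_left (key 27 h27) (IsCoprime.pow_left (key 3 h3))

/-- `K(j_{N'}) ≤ K(x)` for `x = h₂(qⁿ)`, `N' = n * 2`. -/
theorem adjoin_jqN_le_adjoin_hauptX2 (n N' : ℕ) [NeZero n] [NeZero N'] (hN' : N' = n * 2) :
    K⟮jqNModC K N'⟯ ≤ K⟮hauptX2 K n⟯ := by
  rw [IntermediateField.adjoin_simple_le_iff]
  have hx : hauptX2 K n ∈ K⟮hauptX2 K n⟯ := IntermediateField.mem_adjoin_simple_self K _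
  have hrel := hauptX2_rel2 K n N' hN'
  have hx0 := hauptX2_ne_zero K n
  have : jqNModC K N' = (hauptX2 K n + 16) ^ 3 / hauptX2 K n := by
    rw [eq_div_iff hx0, hrel]
  rw [this]
  exact div_mem (pow_mem (add_mem hx (ofNat_mem _ 16)) 3) hx

/-- `K(j_{N'}) ≤ K(x)` for `x = h₃(qⁿ)`, `N' = n * 3`. -/
theorem adjoin_jqN_le_adjoin_hauptX3 (n N' : ℕ) [NeZero n] [NeZero N'] (hN' : N' = n * 3) :
    K⟮jqNModC K N'⟯ ≤ K⟮hauptX3 K n⟯ := by
  rw [IntermediateField.adjoin_simple_le_iff]
  have hx : hauptX3 K n ∈ K⟮hauptX3 K n⟯ := IntermediateField.mem_adjoin_simple_self K _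
  have hrel := hauptX3_rel2 K n N' hN'
  have hx0 := hauptX3_ne_zero K n
  have : jqNModC K N' = (hauptX3 K n + 27) * (hauptX3 K n + 3) ^ 3 / hauptX3 K n := by
    rw [eq_div_iff hx0, hrel]
  rw [this]
  exact div_mem (mul_mem (add_mem hx (ofNat_mem _ 27)) (pow_mem (add_mem hx (ofNat_mem _ 3)) 3)) hx

/-- `[K(x) : K(j_{N'})] = 3` for `x = h₂(qⁿ)`, `N' = n * 2`, when `2 ≠ 0` in `K`. -/
theorem relfinrank_hauptX2 (h2 : (2 : K) ≠ 0) (n N' : ℕ) [NeZero n] [NeZero N']
    (hN' : N' = n * 2) :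
    IntermediateField.relfinrank K⟮jqNModC K N'⟯ K⟮hauptX2 K n⟯ = 3 := by
  have hrel := hauptX2_rel2 K n N' hN'
  have hx0 := hauptX2_ne_zero K n
  have hj : jqNModC K N' =
      aeval (hauptX2 K n) ((X + C (16 : K)) ^ 3) / aeval (hauptX2 K n) (X : K[X]) := by
    rw [eq_div_iff (by simpa using hx0)]
    simp only [map_pow, map_add, aeval_X, aeval_C]
    rw [hrel, map_ofNat]
  rw [hj, relfinrank_adjoin_div (hauptX2 K n) (transcendental_hauptX2 K n) monic_X
    (isCoprime_level2 K h2)]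
  rw [natDegree_pow, natDegree_X_add_C, natDegree_X]
  norm_num

/-- `[K(x) : K(j_{N'})] = 4` for `x = h₃(qⁿ)`, `N' = n * 3`, when `3 ≠ 0` in `K`. -/
theorem relfinrank_hauptX3 (h3 : (3 : K) ≠ 0) (n N' : ℕ) [NeZero n] [NeZero N']
    (hN' : N' = n * 3) :
    IntermediateField.relfinrank K⟮jqNModC K N'⟯ K⟮hauptX3 K n⟯ = 4 := by
  have hrel := hauptX3_rel2 K n N' hN'
  have hx0 := hauptX3_ne_zero K n
  have hj : jqNModC K N' =
      aeval (hauptX3 K n) ((X + C (27 : K)) * (X + C (3 : K)) ^ 3) /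
        aeval (hauptX3 K n) (X : K[X]) := by
    rw [eq_div_iff (by simpa using hx0)]
    simp only [map_mul, map_pow, map_add, aeval_X, aeval_C]
    rw [hrel, map_ofNat, map_ofNat]
  rw [hj, relfinrank_adjoin_div (hauptX3 K n) (transcendental_hauptX3 K n) monic_X
    (isCoprime_level3 K h3)]
  rw [(monic_X_add_C _).natDegree_mul ((monic_X_add_C _).pow 3), natDegree_pow,
    natDegree_X_add_C, natDegree_X]
  norm_num

/-- Tower law: `3 * [F : K(x)] = [F : K(j_{N'})]` for `F = modularFunctionFieldFullC K N'`,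
`x = h₂(qⁿ)`, `N' = n * 2`, `2 ≠ 0` in `K`. -/
theorem relfinrank_full_hauptX2 (h2 : (2 : K) ≠ 0) (n N' : ℕ) [NeZero n] [NeZero N']
    (hN' : N' = n * 2) :
    3 * IntermediateField.relfinrank K⟮hauptX2 K n⟯ (modularFunctionFieldFullC K N') =
      IntermediateField.relfinrank K⟮jqNModC K N'⟯ (modularFunctionFieldFullC K N') := by
  have hle : K⟮hauptX2 K n⟯ ≤ modularFunctionFieldFullC K N' := by
    rw [IntermediateField.adjoin_simple_le_iff]
    exact hauptX2_mem_full K h2 n N' hN'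
  rw [← relfinrank_hauptX2 K h2 n N' hN']
  exact IntermediateField.relfinrank_mul_relfinrank (adjoin_jqN_le_adjoin_hauptX2 K n N' hN') hle

/-- Tower law: `4 * [F : K(x)] = [F : K(j_{N'})]` for `F = modularFunctionFieldFullC K N'`,
`x = h₃(qⁿ)`, `N' = n * 3`, `3 ≠ 0` in `K`. -/
theorem relfinrank_full_hauptX3 (h3 : (3 : K) ≠ 0) (n N' : ℕ) [NeZero n] [NeZero N']
    (hN' : N' = n * 3) :
    4 * IntermediateField.relfinrank K⟮hauptX3 K n⟯ (modularFunctionFieldFullC K N') =
      IntermediateField.relfinrank K⟮jqNModC K N'⟯ (modularFunctionFieldFullC K N') := by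
  have hle : K⟮hauptX3 K n⟯ ≤ modularFunctionFieldFullC K N' := by
    rw [IntermediateField.adjoin_simple_le_iff]
    exact hauptX3_mem_full K h3 n N' hN'
  rw [← relfinrank_hauptX3 K h3 n N' hN']
  exact IntermediateField.relfinrank_mul_relfinrank (adjoin_jqN_le_adjoin_hauptX3 K n N' hN') hle

end Haupt

end Fermat.Agent.S18.H24
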