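import Mathlib
import Fermat.Agent.S18.H28.BridgeDefs
import Fermat.Agent.S18.H60.UnitFacts
import Fermat.Agent.S18.H24.HauptDeg

/-!
# S18 / B4 (helper24): the leaves `exists_haupt_two`, `exists_haupt_three`

Statements verbatim from helper28's bridge sub-skeleton (`H28/SetupAsm.lean`), in the vocabulary
of the landed `H28/BridgeDefs.lean`: for `M ∣ N'` (`M = 2`, resp. `3`) and `ℓ ≠ M` there is an
`A`-integral series `X0 = h_M(q^{N'/M})` lying in `F_{N'}`, whose reduction lies in `F_k`, is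
transcendental, and which satisfies `j(q^{N'}) x = (x + 16)³` (resp. `(x + 27)(x + 3)³`) on both
fibres.
-/

set_option autoImplicit false

noncomputable section

namespace Fermat.Agent.S18.H24

open ModularCurve IntermediateField AlgebraicCurve Fermat.Agent.S18.H74 Fermat.Agent.S18.H28

/-- A natural number prime to `ℓ` is nonzero in the residue field of `A`. -/
theorem natCast_kA_ne_zero {ℓ : ℕ} [Fact ℓ.Prime] (A : ValuationSubring Kb)
    (hA : A.LiesOverPrime ℓ) (m : ℕ) (hm : ¬ ℓ ∣ m) : ((m : ℕ) : kA A) ≠ 0 := by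
  obtain ⟨-, -, hinv, -⟩ := Fermat.Agent.S18.H60.unit_facts A hA m hm
  have hm0 : ((m : ℕ) : Kb) ≠ 0 := by
    intro h0
    rw [h0, inv_zero] at hinv
    have hℓ : ℓ.Prime := Fact.out
    have : (m : ℚ) = 0 := by
      have h1 : algebraMap ℚ Kb (m : ℚ) = 0 := by rw [map_natCast]; exact h0
      exact (map_eq_zero (algebraMap ℚ Kb)).mp h1
    have hm' : m = 0 := by exact_mod_cast this
    exact hm (hm' ▸ dvd_zero ℓ)
  have hmul : ((m : ℕ) : A) * ⟨((m : ℕ) : Kb)⁻¹, hinv⟩ = 1 := by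
    apply Subtype.ext
    push_cast
    exact mul_inv_cancel₀ hm0
  intro h0
  have h1 := congrArg (IsLocalRing.residue A) hmul
  rw [map_mul, map_natCast, map_one] at h1
  rw [show ((m : ℕ) : IsLocalRing.ResidueField A) = 0 from h0, zero_mul] at h1
  exact zero_ne_one h1

theorem coeffEmb_qExpand_jq (N' : ℕ) [NeZero N'] :
    coeffEmb Kb (qExpand ℚ N' jq) = jqNModC Kb N' := by
  rw [coeffEmb, ← jqModC_rat]
  exact coeffMap_jqNModC (algebraMap ℚ Kb) N'

/-- **B4a–c**, level two (`ℓ ≠ 2`): statement verbatim from `H28/SetupAsm.lean`. -/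
theorem exists_haupt_two (N' : ℕ) [NeZero N'] (h2 : 2 ∣ N') (A : ValuationSubring Kb) {ℓ : ℕ}
    [Fact ℓ.Prime] (hA : A.LiesOverPrime ℓ) (hℓ : ℓ ≠ 2) :
    ∃ (X0 : LaurentSeries A) (x : FN N'), (x : LaurentSeries Kb) = incA A X0 ∧
      redA A X0 ∈ modularFunctionFieldFullC (kA A) N' ∧
      Transcendental (kA A) (redA A X0) ∧
      jtop N' * x = (x + 16) ^ 3 ∧
      jqNModC (kA A) N' * redA A X0 = (redA A X0 + 16) ^ 3 := by
  obtain ⟨n, hn⟩ := h2
  have hN' : N' = n * 2 := by rw [hn, mul_comm]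
  have : NeZero n := ⟨fun h0 => NeZero.ne N' (by rw [hN', h0, zero_mul])⟩
  have hℓp : ℓ.Prime := Fact.out
  have h2k : (2 : kA A) ≠ 0 := by
    have := natCast_kA_ne_zero A hA 2
      (fun h => hℓ ((Nat.prime_dvd_prime_iff_eq hℓp Nat.prime_two).mp h))
    exact_mod_cast this
  have hred : redA A (hauptX2 A n) = hauptX2 (kA A) n := coeffMap_hauptX2 _ n
  refine ⟨hauptX2 A n, ⟨hauptX2 Kb n, hauptX2_mem_bar n N' hN'⟩,
    (coeffMap_hauptX2 A.subtype n).symm, ?_, ?_, ?_, ?_⟩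
  · rw [hred]
    exact hauptX2_mem_full (kA A) h2k n N' hN'
  · rw [hred]
    exact transcendental_hauptX2 (kA A) n
  · apply Subtype.ext
    have h := hauptX2_rel2 Kb n N' hN'
    rw [← coeffEmb_qExpand_jq] at h
    have h16 : ((16 : FN N') : LaurentSeries Kb) = 16 := rfl
    simpa [h16] using h
  · rw [hred]
    exact hauptX2_rel2 (kA A) n N' hN'

/-- **B5a–c**, level three (`ℓ ≠ 3`): statement verbatim from `H28/SetupAsm.lean`. -/
theorem exists_haupt_three (N' : ℕ) [NeZero N'] (h3 : 3 ∣ N') (A : ValuationSubring Kb) {ℓ : ℕ}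
    [Fact ℓ.Prime] (hA : A.LiesOverPrime ℓ) (hℓ : ℓ ≠ 3) :
    ∃ (X0 : LaurentSeries A) (x : FN N'), (x : LaurentSeries Kb) = incA A X0 ∧
      redA A X0 ∈ modularFunctionFieldFullC (kA A) N' ∧
      Transcendental (kA A) (redA A X0) ∧
      jtop N' * x = (x + 27) * (x + 3) ^ 3 ∧
      jqNModC (kA A) N' * redA A X0 = (redA A X0 + 27) * (redA A X0 + 3) ^ 3 := by
  obtain ⟨n, hn⟩ := h3
  have hN' : N' = n * 3 := by rw [hn, mul_comm]
  have : NeZero n := ⟨fun h0 => NeZero.ne N' (by rw [hN', h0, zero_mul])⟩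
  have hℓp : ℓ.Prime := Fact.out
  have h3k : (3 : kA A) ≠ 0 := by
    have := natCast_kA_ne_zero A hA 3
      (fun h => hℓ ((Nat.prime_dvd_prime_iff_eq hℓp Nat.prime_three).mp h))
    exact_mod_cast this
  have hred : redA A (hauptX3 A n) = hauptX3 (kA A) n := coeffMap_hauptX3 _ n
  refine ⟨hauptX3 A n, ⟨hauptX3 Kb n, hauptX3_mem_bar n N' hN'⟩,
    (coeffMap_hauptX3 A.subtype n).symm, ?_, ?_, ?_, ?_⟩
  · rw [hred]
    exact hauptX3_mem_full (kA A) h3k n N' hN'
  · rw [hred]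
    exact transcendental_hauptX3 (kA A) n
  · apply Subtype.ext
    have h := hauptX3_rel2 Kb n N' hN'
    rw [← coeffEmb_qExpand_jq] at h
    have h27 : ((27 : FN N') : LaurentSeries Kb) = 27 := rfl
    have h3' : ((3 : FN N') : LaurentSeries Kb) = 3 := rfl
    simpa [h27, h3'] using h
  · rw [hred]
    exact hauptX3_rel2 (kA A) n N' hN'

end Fermat.Agent.S18.H24
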