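/-
S18 / core 2, leaf K2-N (place bridge, helper24): generic lemmas relating valuation subrings of a
subfield `F₀ ⊆ F` over a subfield `k ⊆ K` of constants to Prelude places of `F / K`.

Setting: `k ⊆ K` algebraic, `F / K` finite over `K(x)`, `F₀ : IntermediateField k F`.

* `exists_place_comap` (P1): every valuation subring `V ≠ ⊤` of `F₀` containing `k` is the
  trace on `F₀` of a place `P` of `F / K`.
* `ord_aeval_minpoly`: for a place `P` centred at `x = c`, the minimal polynomial `g` of `c`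
  over `k` satisfies `ord_P g(x) = ord_P (x - c)` (characteristic zero).
* `exists_uniformiser_finset` (P5): a finite set `T ⊆ F` containing a uniformiser for every pole
  of `x` and every place over a point of a given finite set `S`.
* `hdiv_descent` (P4): if `F₀ ∋ x` contains such a `T` and `F / K(x)` is unramified off `S` and
  `∞`, then a function `u ∈ F₀` whose divisor on `F / K` is divisible by `p` is, at every
  valuation subring `V ≠ ⊤` of `F₀ / k`, a unit times a `p`-th power.
* `algebraMap_mem_of_inv_mem`, `ne_top_of_isDiscreteValuationRing`: the glue to the hypotheses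
  of the descended setup.
-/
import Mathlib
import Fermat.Prelude.Def_AlgebraicCurve_DivisorClassGroup
import Fermat.Agent.S24.Ord
import Fermat.Agent.S24.Residue
import Fermat.Agent.S18.H42.Fibres
import Fermat.Agent.S18.H42.FiniteOrd
import Fermat.Agent.S18.H78.ConstGeneric

set_option autoImplicit false

open AlgebraicCurve IntermediateField Polynomial

noncomputable section

namespace Fermat.Agent.S18.H24

variable {k K F : Type*} [Field k] [Field K] [Field F] [Algebra k K] [Algebra K F] [Algebra k F]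
  [IsScalarTower k K F]

/-- **(P1)** A valuation subring `V ≠ ⊤` of `F₀` containing the constants `k` is the trace on
`F₀` of a place of `F / K`. -/
theorem exists_place_comap [Algebra.IsAlgebraic k K] (x : F) [FiniteDimensional K⟮x⟯ F]
    (F₀ : IntermediateField k F) (V : ValuationSubring F₀)
    (hkV : ∀ a : k, algebraMap k F₀ a ∈ V) (hV : V ≠ ⊤) :
    ∃ P : Place K F, ∀ f : F₀, f ∈ V ↔ (f : F) ∈ P.toValuationSubring := by
  obtain ⟨W, hle, hloc⟩ := LocalSubring.exists_le_valuationSubring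
    ((V.toLocalSubring).map (algebraMap F₀ F))
  have h1 : ∀ f : F₀, f ∈ V → (f : F) ∈ W := fun f hf => hle ⟨f, hf, rfl⟩
  have h2 : ∀ f : F₀, f ∈ V → (f : F)⁻¹ ∈ W → f⁻¹ ∈ V := by
    intro f hf hinv
    by_cases hf0 : f = 0
    · rw [hf0, inv_zero]
      exact V.zero_mem
    have hfF : (f : F) ≠ 0 := fun h => hf0 (by exact_mod_cast h)
    have hu : IsUnit (Subring.inclusion hle ⟨(f : F), ⟨f, hf, rfl⟩⟩) := by
      refine isUnit_iff_exists_inv.mpr ⟨⟨(f : F)⁻¹, hinv⟩, Subtype.ext ?_⟩
      show (f : F) * (f : F)⁻¹ = 1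
      exact mul_inv_cancel₀ hfF
    have hu' := hloc.map_nonunit _ hu
    obtain ⟨⟨_, g, hg, rfl⟩, hfg⟩ := isUnit_iff_exists_inv.mp hu'
    have h3 : (f : F) * (g : F) = 1 := congrArg Subtype.val hfg
    have h4 : f * g = 1 := by
      apply Subtype.ext
      exact h3
    have h5 : f⁻¹ = g := (eq_inv_of_mul_eq_one_right h4).symm ▸ rfl
    rw [h5]
    exact hg
  have hiff : ∀ f : F₀, f ∈ V ↔ (f : F) ∈ W := by
    intro f
    refine ⟨h1 f, fun hfW => ?_⟩
    rcases V.mem_or_inv_mem f with hf | hf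
    · exact hf
    · have := h2 f⁻¹ hf (by
        show ((f⁻¹ : F₀) : F)⁻¹ ∈ W
        have : ((f⁻¹ : F₀) : F) = (f : F)⁻¹ := rfl
        rw [this, inv_inv]
        exact hfW)
      rwa [inv_inv] at this
  have hkW : ∀ c : k, algebraMap k F c ∈ W := fun c => h1 (algebraMap k F₀ c) (hkV c)
  have hKW : ∀ a : K, algebraMap K F a ∈ W := by
    intro a
    have ha : IsIntegral k a := (Algebra.IsAlgebraic.isAlgebraic a).isIntegral
    have ha' : IsIntegral k (algebraMap K F a) := ha.algebraMap
    obtain ⟨q, hq, hqa⟩ := ha'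
    let ψ : k →+* W := (algebraMap k F).codRestrict W.toSubring hkW
    have hint : IsIntegral W (algebraMap K F a) := by
      refine ⟨q.map ψ, hq.map ψ, ?_⟩
      rw [Polynomial.eval₂_map]
      exact hqa
    obtain ⟨y, hy⟩ := IsIntegrallyClosed.isIntegral_iff.mp hint
    rw [← hy]
    exact y.2
  have hWtop : W ≠ ⊤ := by
    intro hW
    apply hV
    ext f
    simp only [ValuationSubring.mem_top, iff_true]
    rw [hiff f, hW]
    exact ValuationSubring.mem_top _
  exact ⟨Fermat.Agent.S18.H78.placeOfValuationSubring x W hKW hWtop, hiff⟩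

/-- For a place `P` of `F / K` centred at `x = c`, the minimal polynomial `g` of `c` over the
subfield `k` of constants satisfies `ord_P g(x) = ord_P (x - c)` (in characteristic zero `c` is
a simple root of `g`). -/
theorem ord_aeval_minpoly [Algebra.IsAlgebraic k K] [CharZero k] (P : Place K F) {x : F} {c : K}
    (hP : 0 < P.ord (x - algebraMap K F c)) :
    aeval x (minpoly k c) ≠ 0 ∧
      P.ord (aeval x (minpoly k c)) = P.ord (x - algebraMap K F c) := by
  have hc : IsIntegral k c := (Algebra.IsAlgebraic.isAlgebraic c).isIntegral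
  have hirr : Irreducible (minpoly k c) := minpoly.irreducible hc
  have hsep : (minpoly k c).Separable := hirr.separable
  have hsep' : ((minpoly k c).map (algebraMap k K)).Separable := hsep.map
  have hne : (minpoly k c).map (algebraMap k K) ≠ 0 :=
    (Polynomial.map_ne_zero_iff (algebraMap k K).injective).mpr (minpoly.ne_zero hc)
  have hroot : ((minpoly k c).map (algebraMap k K)).IsRoot c := by
    rw [Polynomial.IsRoot.def, Polynomial.eval_map, ← Polynomial.aeval_def]
    exact minpoly.aeval k c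
  have hmult : ((minpoly k c).map (algebraMap k K)).rootMultiplicity c = 1 := by
    have h1 := Polynomial.rootMultiplicity_le_one_of_separable hsep' c
    have h2 := (Polynomial.rootMultiplicity_pos hne).mpr hroot
    omega
  have key := Fermat.Agent.S18.H42.ord_aeval P hP hne
  rw [Polynomial.aeval_map_algebraMap, hmult] at key
  refine ⟨key.1, ?_⟩
  rw [key.2]
  simp

/-- **(P5)** A finite set of functions containing a uniformiser for every pole of `x` and for
every place lying over a point of the finite set `S`. -/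
theorem exists_uniformiser_finset [CharZero K] (x : F) (hx : Transcendental K x)
    [FiniteDimensional K⟮x⟯ F] (S : Finset K) :
    ∃ T : Finset F, ∀ P : Place K F,
      (x ∉ P.toValuationSubring ∨ ∃ c ∈ S, 0 < P.ord (x - algebraMap K F c)) →
      ∃ t ∈ T, P.ord t = 1 := by
  classical
  have hx0 : x ≠ 0 := by
    rintro rfl
    exact hx isAlgebraic_zero
  have hfin : ({P : Place K F | P.ord x < 0} ∪
      ⋃ c ∈ S, {P : Place K F | 0 < P.ord (x - algebraMap K F c)}).Finite :=
    (Fermat.Agent.S18.H42.finite_ord_x_neg x hx).union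
      (S.finite_toSet.biUnion fun c _ => Fermat.Agent.S18.H42.finite_over x hx c)
  choose τ hτ using fun P : Place K F => Fermat.Agent.S24.exists_ord_eq_one P
  refine ⟨hfin.toFinset.image τ, fun P hP => ⟨τ P, ?_, hτ P⟩⟩
  refine Finset.mem_image_of_mem τ ((Set.Finite.mem_toFinset hfin).mpr ?_)
  rcases hP with hP | ⟨c, hc, hP⟩
  · left
    show P.ord x < 0
    have := (Fermat.Agent.S24.mem_iff_ord_nonneg P hx0).not.mp hP
    omega
  · right
    exact Set.mem_biUnion (Finset.mem_coe.mpr hc) hP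

/-- Every place `P` of `F / K` has a uniformiser in `F₀`, provided `F₀ ∋ x` contains the finite
set `T` of `exists_uniformiser_finset` and `F / K(x)` is unramified outside `S` and the poles
of `x`. -/
theorem exists_uniformiser_mem [Algebra.IsAlgebraic k K] [IsAlgClosed K] [CharZero k] (x : F)
    [FiniteDimensional K⟮x⟯ F] (S : Finset K)
    (hbr : ∀ (P : Place K F) (c : K), c ∉ S →
      0 < P.ord (x - algebraMap K F c) → P.ord (x - algebraMap K F c) = 1)
    (F₀ : IntermediateField k F) (hx₀ : x ∈ F₀) (T : Finset F)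
    (hT : ∀ P : Place K F,
      (x ∉ P.toValuationSubring ∨ ∃ c ∈ S, 0 < P.ord (x - algebraMap K F c)) →
      ∃ t ∈ T, P.ord t = 1)
    (hTF : ∀ t ∈ T, t ∈ F₀) (P : Place K F) : ∃ τ : F₀, P.ord (τ : F) = 1 := by
  classical
  have hcase : (x ∉ P.toValuationSubring ∨ ∃ c ∈ S, 0 < P.ord (x - algebraMap K F c)) ∨
      ∃ c : K, c ∉ S ∧ 0 < P.ord (x - algebraMap K F c) := by
    rcases Fermat.Agent.S24.exists_center x P with h | ⟨c, hc⟩
    · left; left
      intro hxP
      by_cases hx0 : x = 0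
      · rw [hx0, Place.ord_zero] at h
        exact lt_irrefl _ h
      · have := (Fermat.Agent.S24.mem_iff_ord_nonneg P hx0).mp hxP
        omega
    · by_cases hcS : c ∈ S
      · exact Or.inl (Or.inr ⟨c, hcS, hc⟩)
      · exact Or.inr ⟨c, hcS, hc⟩
  rcases hcase with h | ⟨c, hcS, hc⟩
  · obtain ⟨t, ht, hord⟩ := hT P h
    exact ⟨⟨t, hTF t ht⟩, hord⟩
  · refine ⟨aeval (⟨x, hx₀⟩ : F₀) (minpoly k c), ?_⟩
    have hcoe : ((aeval (⟨x, hx₀⟩ : F₀) (minpoly k c) : F₀) : F) = aeval x (minpoly k c) :=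
      (Polynomial.aeval_algHom_apply F₀.val (⟨x, hx₀⟩ : F₀) (minpoly k c)).symm
    rw [hcoe, (ord_aeval_minpoly (k := k) P hc).2]
    exact hbr P c hcS hc

/-- **(P4)** Divisibility of the divisor descends: if the divisor of `u ∈ F₀` on `F / K` is
divisible by `p` and every place of `F / K` has a uniformiser in `F₀`, then at every valuation
subring `V ≠ ⊤` of `F₀ / k` the function `u` is a unit times a `p`-th power. -/
theorem hdiv_of_uniformiser [Algebra.IsAlgebraic k K] (x : F) [FiniteDimensional K⟮x⟯ F]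
    (F₀ : IntermediateField k F) (hunif : ∀ P : Place K F, ∃ τ : F₀, P.ord (τ : F) = 1)
    (p : ℕ) (u : F₀) (hord : ∀ P : Place K F, (p : ℤ) ∣ P.ord (u : F))
    (V : ValuationSubring F₀) (hkV : ∀ a : k, algebraMap k F₀ a ∈ V) (hV : V ≠ ⊤) :
    ∃ t : F₀, t ≠ 0 ∧ u / t ^ p ∈ V ∧ (u / t ^ p)⁻¹ ∈ V := by
  by_cases hu0 : u = 0
  · refine ⟨1, one_ne_zero, ?_, ?_⟩ <;> simp [hu0, V.zero_mem]
  obtain ⟨P, hPV⟩ := exists_place_comap (K := K) x F₀ V hkV hV
  obtain ⟨τ, hτ⟩ := hunif P
  obtain ⟨m, hm⟩ := hord P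
  have hτ0 : τ ≠ 0 := by
    rintro rfl
    rw [ZeroMemClass.coe_zero, Place.ord_zero] at hτ
    exact zero_ne_one hτ
  have hτF : (τ : F) ≠ 0 := fun h => hτ0 (by exact_mod_cast h)
  have huF : (u : F) ≠ 0 := fun h => hu0 (by exact_mod_cast h)
  have ht0 : τ ^ m ≠ 0 := zpow_ne_zero m hτ0
  have htF : ((τ : F) ^ m) ^ p ≠ 0 := pow_ne_zero p (zpow_ne_zero m hτF)
  have hcoe : ((u / (τ ^ m) ^ p : F₀) : F) = (u : F) / ((τ : F) ^ m) ^ p := by
    push_cast
    rfl
  have hw0 : (u : F) / ((τ : F) ^ m) ^ p ≠ 0 := div_ne_zero huF htF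
  have hordw : P.ord ((u : F) / ((τ : F) ^ m) ^ p) = 0 := by
    rw [Fermat.Agent.S24.ord_div P huF htF, Fermat.Agent.S24.ord_pow, P.ord_zpow, hτ, hm]
    ring
  refine ⟨τ ^ m, ht0, ?_, ?_⟩
  · rw [hPV, hcoe, Fermat.Agent.S24.mem_iff_ord_nonneg P hw0, hordw]
  · rw [hPV]
    have hcoe' : (((u / (τ ^ m) ^ p)⁻¹ : F₀) : F) = ((u : F) / ((τ : F) ^ m) ^ p)⁻¹ := by
      rw [← hcoe]
      rfl
    rw [hcoe', Fermat.Agent.S24.mem_iff_ord_nonneg P (inv_ne_zero hw0), P.ord_inv, hordw]
    simp

/-- **(P4)**, assembled: the last clause of the descent, for a valuation subring `V ≠ ⊤` of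
`F₀` containing `k`. -/
theorem hdiv_descent [Algebra.IsAlgebraic k K] [IsAlgClosed K] [CharZero k] (x : F)
    [FiniteDimensional K⟮x⟯ F] (S : Finset K)
    (hbr : ∀ (P : Place K F) (c : K), c ∉ S →
      0 < P.ord (x - algebraMap K F c) → P.ord (x - algebraMap K F c) = 1)
    (F₀ : IntermediateField k F) (hx₀ : x ∈ F₀) (T : Finset F)
    (hT : ∀ P : Place K F,
      (x ∉ P.toValuationSubring ∨ ∃ c ∈ S, 0 < P.ord (x - algebraMap K F c)) →
      ∃ t ∈ T, P.ord t = 1)
    (hTF : ∀ t ∈ T, t ∈ F₀)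
    (p : ℕ) (u : F₀) (hord : ∀ P : Place K F, (p : ℤ) ∣ P.ord (u : F))
    (V : ValuationSubring F₀) (hkV : ∀ a : k, algebraMap k F₀ a ∈ V) (hV : V ≠ ⊤) :
    ∃ t : F₀, t ≠ 0 ∧ u / t ^ p ∈ V ∧ (u / t ^ p)⁻¹ ∈ V :=
  hdiv_of_uniformiser (K := K) x F₀
    (exists_uniformiser_mem (k := k) x S hbr F₀ hx₀ T hT hTF) p u hord V hkV hV

/-- A discrete valuation ring inside a field is not the whole field. -/
theorem ne_top_of_isDiscreteValuationRing {E : Type*} [Field E] (V : ValuationSubring E)
    [IsDiscreteValuationRing V] : V ≠ ⊤ := by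
  intro hV
  obtain ⟨ϖ, hϖ⟩ := IsDiscreteValuationRing.exists_irreducible V
  apply hϖ.not_isUnit
  have hall : ∀ y : E, y ∈ V := fun y => by
    rw [hV]
    exact ValuationSubring.mem_top _
  have hmem : (ϖ : E)⁻¹ ∈ V := hall _
  have h0 : (ϖ : E) ≠ 0 := fun h => hϖ.ne_zero (Subtype.ext h)
  refine isUnit_iff_exists_inv.mpr ⟨⟨(ϖ : E)⁻¹, hmem⟩, Subtype.ext ?_⟩
  show (ϖ : E) * (ϖ : E)⁻¹ = 1
  exact mul_inv_cancel₀ h0

/-- If a valuation subring `V` of `E` contains the inverses of all nonzero elements of a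
valuation subring `B` of a subfield `k₀`, it contains `k₀`. -/
theorem algebraMap_mem_of_inv_mem {k₀ E : Type*} [Field k₀] [Field E] [Algebra k₀ E]
    (B : ValuationSubring k₀) (V : ValuationSubring E)
    (h : ∀ a : B, a ≠ 0 → (algebraMap k₀ E (a : k₀))⁻¹ ∈ V) (b : k₀) : algebraMap k₀ E b ∈ V := by
  by_cases hb0 : b = 0
  · rw [hb0, map_zero]
    exact V.zero_mem
  have key : ∀ c : k₀, c ≠ 0 → c⁻¹ ∈ B → algebraMap k₀ E c ∈ V := by
    intro c hc0 hc
    have := h ⟨c⁻¹, hc⟩ (fun h0 => inv_ne_zero hc0 (congrArg Subtype.val h0))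
    simpa using this
  by_cases hb : b⁻¹ ∈ B
  · exact key b hb0 hb
  · have hv : B.valuation b < 1 := by
      have h1 : ¬ B.valuation b⁻¹ ≤ 1 := fun hle => hb ((B.valuation_le_one_iff _).mp hle)
      rw [map_inv₀, not_le] at h1
      have hpos : 0 < B.valuation b := by
        rw [zero_lt_iff]
        exact (_root_.map_ne_zero _).mpr hb0
      exact (one_lt_inv₀ hpos).mp h1
    have hv1 : B.valuation (1 + b) = 1 := B.valuation.map_one_add_of_lt hv
    have h1b : (1 + b) ≠ 0 := by
      intro h0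
      rw [h0, map_zero] at hv1
      exact zero_ne_one hv1
    have hmem : (1 + b)⁻¹ ∈ B := by
      rw [← B.valuation_le_one_iff, map_inv₀, hv1, inv_one]
    have h2 := key (1 + b) h1b hmem
    have h3 : algebraMap k₀ E b = algebraMap k₀ E (1 + b) - 1 := by
      rw [map_add, map_one]
      ring
    rw [h3]
    exact V.sub_mem h2 V.one_mem

end Fermat.Agent.S18.H24
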