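/-
S18 / core 2, leaf K2-N (helper24): the leaf N-BR (`dsetup_branch`) of helper8's sub-skeleton
`H8/DescentSkel.lean`, VERBATIM (same variable block, same binder order), from the generic
lemmas of `H24/PlaceLift.lean`.

A discrete valuation ring `V` of `F₀ / K₀` with `x ∈ V` whose centre is not a point of the branch
set `S` is the trace of a place `P` of `F / K` centred at some `c ∉ S`; `P` is unramified over
`K(x)`, so the minimal polynomial of `c` over `K₀`, evaluated at `x`, is a uniformiser of `V`.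
-/
import Mathlib
import Fermat.Agent.S18.H19.Core2Defs
import Fermat.Agent.S18.H24.PlaceLift

set_option autoImplicit false

open AlgebraicCurve IntermediateField Polynomial

noncomputable section

namespace Fermat.Agent.S18.H24

open Fermat.Agent.S18.H19

section Generic

variable {k K F : Type*} [Field k] [Field K] [Field F] [Algebra k K] [Algebra K F] [Algebra k F]
  [IsScalarTower k K F]

/-- A valuation subring `V ≠ ⊤` of `F₀ / k` containing `x` and the inverses of `x - s`, `s ∈ S`,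
is the trace of a place `P` of `F / K` at which `g(x)` has order one, `g` the minimal polynomial
over `k` of the centre of `P`. -/
theorem exists_place_minpoly [Algebra.IsAlgebraic k K] [IsAlgClosed K] [CharZero k] (x : F)
    [FiniteDimensional K⟮x⟯ F] (hx0 : x ≠ 0) (S : Finset K)
    (hbr : ∀ (P : Place K F) (c : K), c ∉ S →
      0 < P.ord (x - algebraMap K F c) → P.ord (x - algebraMap K F c) = 1)
    (F₀ : IntermediateField k F) (hx₀ : x ∈ F₀) (V : ValuationSubring F₀)
    (hkV : ∀ a : k, algebraMap k F₀ a ∈ V) (hV : V ≠ ⊤) (hxV : (⟨x, hx₀⟩ : F₀) ∈ V)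
    (hSV : ∀ c ∈ S, ∃ c₀ : k, algebraMap k K c₀ = c ∧
      ((⟨x, hx₀⟩ : F₀) - algebraMap k F₀ c₀)⁻¹ ∈ V) :
    ∃ (P : Place K F) (c : K), (∀ f : F₀, f ∈ V ↔ (f : F) ∈ P.toValuationSubring) ∧
      P.ord (aeval x (minpoly k c)) = 1 := by
  obtain ⟨P, hPV⟩ := exists_place_comap (K := K) x F₀ V hkV hV
  have hxP : x ∈ P.toValuationSubring := (hPV ⟨x, hx₀⟩).mp hxV
  rcases Fermat.Agent.S24.exists_center x P with h | ⟨c, hc⟩
  · have := (Fermat.Agent.S24.mem_iff_ord_nonneg P hx0).mp hxP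
    omega
  · have hcS : c ∉ S := by
      intro hcS
      obtain ⟨c₀, hc₀, hinv⟩ := hSV c hcS
      have h1 := (hPV _).mp hinv
      have hcoe : ((((⟨x, hx₀⟩ : F₀) - algebraMap k F₀ c₀)⁻¹ : F₀) : F)
          = (x - algebraMap K F c)⁻¹ := by
        rw [← hc₀, ← IsScalarTower.algebraMap_apply k K F]
        rfl
      rw [hcoe] at h1
      have hne : x - algebraMap K F c ≠ 0 := by
        intro h0
        rw [h0, Place.ord_zero] at hc
        exact lt_irrefl _ hc
      have h2 := (Fermat.Agent.S24.mem_iff_ord_nonneg P (inv_ne_zero hne)).mp h1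
      rw [P.ord_inv] at h2
      omega
    refine ⟨P, c, hPV, ?_⟩
    rw [(ord_aeval_minpoly (k := k) P hc).2]
    exact hbr P c hcS hc

omit [Algebra k K] [IsScalarTower k K F] in
/-- An element of `F₀` of order one at a place `P` whose trace on `F₀` is `V` is a uniformiser
of `V`, in the form required by the branch clause of the descended setup. -/
theorem branch_of_ord_eq_one (F₀ : IntermediateField k F) (V : ValuationSubring F₀)
    (P : Place K F) (hPV : ∀ f : F₀, f ∈ V ↔ (f : F) ∈ P.toValuationSubring)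
    (G : F₀) (hG : P.ord (G : F) = 1) :
    G ∈ V ∧ G⁻¹ ∉ V ∧ ∀ t ∈ V, t⁻¹ ∉ V → t / G ∈ V := by
  have hGF : (G : F) ≠ 0 := by
    intro h0
    rw [h0, Place.ord_zero] at hG
    exact zero_ne_one hG
  refine ⟨?_, ?_, ?_⟩
  · rw [hPV, Fermat.Agent.S24.mem_iff_ord_nonneg P hGF, hG]
    exact zero_le_one
  · rw [hPV]
    have hcoe : ((G⁻¹ : F₀) : F) = (G : F)⁻¹ := rfl
    rw [hcoe, Fermat.Agent.S24.mem_iff_ord_nonneg P (inv_ne_zero hGF), P.ord_inv, hG]
    omega
  · intro t ht htinv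
    have ht0 : t ≠ 0 := by
      rintro rfl
      apply htinv
      rw [inv_zero]
      exact V.zero_mem
    have htF : (t : F) ≠ 0 := fun h => ht0 (by exact_mod_cast h)
    have h1 := (Fermat.Agent.S24.mem_iff_ord_nonneg P htF).mp ((hPV t).mp ht)
    have h2 : ¬ (0 ≤ P.ord ((t : F)⁻¹)) := by
      intro h
      apply htinv
      rw [hPV]
      have hcoe : ((t⁻¹ : F₀) : F) = (t : F)⁻¹ := rfl
      rw [hcoe]
      exact (Fermat.Agent.S24.mem_iff_ord_nonneg P (inv_ne_zero htF)).mpr h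
    rw [P.ord_inv] at h2
    rw [hPV]
    have hcoe : ((t / G : F₀) : F) = (t : F) / (G : F) := rfl
    rw [hcoe, Fermat.Agent.S24.mem_iff_ord_nonneg P (div_ne_zero htF hGF),
      Fermat.Agent.S24.ord_div P htF hGF, hG]
    omega

end Generic

section Leaves

variable {k K : Type*} [Field k] [Field K] [Algebra k K]
  (A : ValuationSubring K) {F : Type*} [Field F] [Algebra K F] (O : ValuationSubring F)
  (K₀ : IntermediateField k K) (F₀ : IntermediateField K₀ F) (x : F) (hx₀ : x ∈ F₀)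

/-- (N-BR) `DSetup.branch`  (G9 + G10), from the branch clause of the `Setup` for a finite set
`S ⊆ A ∩ K₀`.  (Applied to `x` and to `x⁻¹`.) -/
theorem dsetup_branch [IsAlgClosed K] [CharZero K] (hK : Algebra.IsAlgebraic K₀ K)
    (hx : Transcendental K x) [FiniteDimensional K⟮x⟯ F]
    (S : Finset K) (hSA : ∀ c ∈ S, c ∈ A)
    (hSu : ∀ c ∈ S, ∀ c' ∈ S, c ≠ c' → (c - c')⁻¹ ∈ A)
    (hSbr : ∀ (P : Place K F) (c : K), c ∉ S →
      0 < P.ord (x - algebraMap K F c) → P.ord (x - algebraMap K F c) = 1)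
    (hSK₀ : ∀ c ∈ S, c ∈ K₀) :
    letI := algComap (A.comap (algebraMap K₀ K)) F₀
    ∃ S₀ : Finset ↥(A.comap (algebraMap K₀ K)), (∀ a ∈ S₀, ∀ b ∈ S₀, a ≠ b → IsUnit (a - b)) ∧
      ∀ V : ValuationSubring F₀,
        (∀ a : ↥(A.comap (algebraMap K₀ K)), a ≠ 0 →
          (algebraMap ↥(A.comap (algebraMap K₀ K)) F₀ a)⁻¹ ∈ V) →
        IsDiscreteValuationRing V → (⟨x, hx₀⟩ : F₀) ∈ V →
        (∀ a ∈ S₀, ((⟨x, hx₀⟩ : F₀) - algebraMap ↥(A.comap (algebraMap K₀ K)) F₀ a)⁻¹ ∈ V) →
        ∃ g : (↥(A.comap (algebraMap K₀ K)))[X], aeval (⟨x, hx₀⟩ : F₀) g ∈ V ∧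
          (aeval (⟨x, hx₀⟩ : F₀) g)⁻¹ ∉ V ∧
          ∀ t ∈ V, t⁻¹ ∉ V → t / aeval (⟨x, hx₀⟩ : F₀) g ∈ V := by
  classical
  letI := algComap (A.comap (algebraMap K₀ K)) F₀
  have : CharZero K₀ := (algebraMap K₀ K).charZero
  have hx0 : x ≠ 0 := by
    rintro rfl
    exact hx isAlgebraic_zero
  -- the branch set, as a finite subset of `A₀`
  let ι : {c // c ∈ S} → ↥(A.comap (algebraMap K₀ K)) := fun c =>
    ⟨⟨c.1, hSK₀ c.1 c.2⟩, hSA c.1 c.2⟩
  have hι : ∀ c : {c // c ∈ S}, algebraMap K₀ K (ι c : K₀) = c.1 := fun c => rfl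
  refine ⟨S.attach.image ι, ?_, ?_⟩
  · intro a ha b hb hab
    obtain ⟨ca, -, rfl⟩ := Finset.mem_image.mp ha
    obtain ⟨cb, -, rfl⟩ := Finset.mem_image.mp hb
    have hne : ca.1 ≠ cb.1 := by
      intro h
      apply hab
      rw [Subtype.ext h]
    have hinv := hSu ca.1 ca.2 cb.1 cb.2 hne
    have hmem : ((ι ca : K₀) - (ι cb : K₀))⁻¹ ∈ A.comap (algebraMap K₀ K) := by
      rw [ValuationSubring.mem_comap, map_inv₀, map_sub, hι, hι]
      exact hinv
    have hne' : (ι ca : K₀) - (ι cb : K₀) ≠ 0 := by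
      intro h
      apply hne
      have := congrArg (algebraMap K₀ K) (sub_eq_zero.mp h)
      rwa [hι, hι] at this
    refine isUnit_iff_exists_inv.mpr ⟨⟨_, hmem⟩, Subtype.ext ?_⟩
    show ((ι ca : K₀) - (ι cb : K₀)) * ((ι ca : K₀) - (ι cb : K₀))⁻¹ = 1
    exact mul_inv_cancel₀ hne'
  · intro V hV hdvr hxV hSV
    have := hdvr
    have hkV : ∀ a : K₀, algebraMap K₀ F₀ a ∈ V :=
      algebraMap_mem_of_inv_mem (A.comap (algebraMap K₀ K)) V hV
    obtain ⟨P, c, hPV, hord⟩ := exists_place_minpoly (k := K₀) (K := K) x hx0 S hSbr F₀ hx₀ V hkV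
      (ne_top_of_isDiscreteValuationRing V) hxV (by
        intro s hs
        refine ⟨(ι ⟨s, hs⟩ : K₀), rfl, ?_⟩
        exact hSV (ι ⟨s, hs⟩) (Finset.mem_image_of_mem ι (Finset.mem_attach S _)))
    -- clear the denominators of the minimal polynomial
    obtain ⟨b, hbM, hb⟩ := IsLocalization.integerNormalization_spec
      (nonZeroDivisors ↥(A.comap (algebraMap K₀ K))) (minpoly K₀ c)
    have hb0 : (b : K₀) ≠ 0 := by
      intro h
      exact nonZeroDivisors.ne_zero hbM (Subtype.ext h)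
    refine ⟨IsLocalization.integerNormalization
      (nonZeroDivisors ↥(A.comap (algebraMap K₀ K))) (minpoly K₀ c), ?_⟩
    have hval : aeval (⟨x, hx₀⟩ : F₀) (IsLocalization.integerNormalization
        (nonZeroDivisors ↥(A.comap (algebraMap K₀ K))) (minpoly K₀ c))
        = algebraMap K₀ F₀ (b : K₀) * aeval (⟨x, hx₀⟩ : F₀) (minpoly K₀ c) := by
      have h1 : aeval (⟨x, hx₀⟩ : F₀) (IsLocalization.integerNormalization
          (nonZeroDivisors ↥(A.comap (algebraMap K₀ K))) (minpoly K₀ c))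
          = eval₂ (algebraMap K₀ F₀) (⟨x, hx₀⟩ : F₀)
            ((IsLocalization.integerNormalization
              (nonZeroDivisors ↥(A.comap (algebraMap K₀ K))) (minpoly K₀ c)).map
                (algebraMap ↥(A.comap (algebraMap K₀ K)) K₀)) := by
        rw [Polynomial.eval₂_map]
        rfl
      rw [h1, hb, ← IsScalarTower.algebraMap_smul K₀ b (minpoly K₀ c), Polynomial.eval₂_smul,
        Polynomial.aeval_def]
      rfl
    have hcoe : ((aeval (⟨x, hx₀⟩ : F₀) (IsLocalization.integerNormalization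
        (nonZeroDivisors ↥(A.comap (algebraMap K₀ K))) (minpoly K₀ c)) : F₀) : F)
        = algebraMap K F (algebraMap K₀ K (b : K₀)) * aeval x (minpoly K₀ c) := by
      rw [hval]
      have h2 : ((aeval (⟨x, hx₀⟩ : F₀) (minpoly K₀ c) : F₀) : F) = aeval x (minpoly K₀ c) :=
        (Polynomial.aeval_algHom_apply F₀.val (⟨x, hx₀⟩ : F₀) (minpoly K₀ c)).symm
      rw [← h2]
      rfl
    have hmin0 : aeval x (minpoly K₀ c) ≠ 0 := by
      intro h0
      rw [h0, Place.ord_zero] at hord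
      exact zero_ne_one hord
    have hbK : algebraMap K₀ K (b : K₀) ≠ 0 := by
      rw [Ne, map_eq_zero]
      exact hb0
    have hG : P.ord ((aeval (⟨x, hx₀⟩ : F₀) (IsLocalization.integerNormalization
        (nonZeroDivisors ↥(A.comap (algebraMap K₀ K))) (minpoly K₀ c)) : F₀) : F) = 1 := by
      rw [hcoe, P.ord_mul (by rw [Ne, map_eq_zero]; exact hbK) hmin0,
        Fermat.Agent.S24.ord_algebraMap P hbK, hord, zero_add]
    exact branch_of_ord_eq_one (K := K) F₀ V P hPV _ hG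

end Leaves

end Fermat.Agent.S18.H24
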