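/-
S18 / core 2, leaf K2-N (helper24): the place-theoretic leaves N-UNIF and N-HDIV of helper8's
sub-skeleton `H8/DescentSkel.lean`, VERBATIM (same variable block, same binder order), from the
generic lemmas of `H24/PlaceLift.lean`.
-/
import Mathlib
import Fermat.Agent.S18.H19.Core2Defs
import Fermat.Agent.S18.H24.PlaceLift

set_option autoImplicit false

open AlgebraicCurve IntermediateField Polynomial

noncomputable section

namespace Fermat.Agent.S18.H24

open Fermat.Agent.S18.H19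

section Leaves

variable {k K : Type*} [Field k] [Field K] [Algebra k K]
  (A : ValuationSubring K) {F : Type*} [Field F] [Algebra K F] (O : ValuationSubring F)
  (K₀ : IntermediateField k K) (F₀ : IntermediateField K₀ F) (x : F) (hx₀ : x ∈ F₀)

/-- (N-UNIF) finitely many uniformisers: at the poles of `x` and at the places over the points
of `S`. -/
theorem nunif_finset [IsAlgClosed K] [CharZero K] (hx : Transcendental K x)
    [FiniteDimensional K⟮x⟯ F] (S : Finset K) :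
    ∃ T : Finset F, ∀ P : Place K F,
      (x ∉ P.toValuationSubring ∨ ∃ c ∈ S, 0 < P.ord (x - algebraMap K F c)) →
      ∃ t ∈ T, P.ord t = 1 :=
  exists_uniformiser_finset x hx S

/-- Every place of `F / K` has a uniformiser in `F₀` (hypothesis `hunif` in the form of the
sub-skeleton: a uniformiser in `F₀` at the poles of `x` and over `S`). -/
theorem exists_uniformiser_mem_of_hunif [IsAlgClosed K] [CharZero K]
    (hK : Algebra.IsAlgebraic K₀ K) [FiniteDimensional K⟮x⟯ F] (hxF₀ : x ∈ F₀) (S : Finset K)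
    (hSbr : ∀ (P : Place K F) (c : K), c ∉ S →
      0 < P.ord (x - algebraMap K F c) → P.ord (x - algebraMap K F c) = 1)
    (hunif : ∀ P : Place K F,
      (x ∉ P.toValuationSubring ∨ ∃ c ∈ S, 0 < P.ord (x - algebraMap K F c)) →
      ∃ t ∈ F₀, P.ord t = 1)
    (P : Place K F) : ∃ τ : F₀, P.ord (τ : F) = 1 := by
  classical
  have : CharZero K₀ := (algebraMap K₀ K).charZero
  have hcase : (x ∉ P.toValuationSubring ∨ ∃ c ∈ S, 0 < P.ord (x - algebraMap K F c)) ∨
      ∃ c : K, c ∉ S ∧ 0 < P.ord (x - algebraMap K F c) := by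
    rcases Fermat.Agent.S24.exists_center x P with h | ⟨c, hc⟩
    · left; left
      intro hxP
      by_cases hx0 : x = 0
      · rw [hx0, Place.ord_zero] at h
        exact lt_irrefl _ h
      · have := (Fermat.Agent.S24.mem_iff_ord_nonneg P hx0).mp hxP
        omega
    · by_cases hcS : c ∈ S
      · exact Or.inl (Or.inr ⟨c, hcS, hc⟩)
      · exact Or.inr ⟨c, hcS, hc⟩
  rcases hcase with h | ⟨c, hcS, hc⟩
  · obtain ⟨t, ht, hord⟩ := hunif P h
    exact ⟨⟨t, ht⟩, hord⟩
  · refine ⟨aeval (⟨x, hxF₀⟩ : F₀) (minpoly K₀ c), ?_⟩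
    have hcoe : ((aeval (⟨x, hxF₀⟩ : F₀) (minpoly K₀ c) : F₀) : F) = aeval x (minpoly K₀ c) :=
      (Polynomial.aeval_algHom_apply F₀.val (⟨x, hxF₀⟩ : F₀) (minpoly K₀ c)).symm
    rw [hcoe, (ord_aeval_minpoly (k := K₀) P hc).2]
    exact hSbr P c hcS hc

/-- (N-HDIV) the divisor of `u` on `F₀/K₀` is divisible by `p`  (G9 + G10). -/
theorem descent_hdiv [IsAlgClosed K] [CharZero K] (hK : Algebra.IsAlgebraic K₀ K)
    (hx : Transcendental K x) [FiniteDimensional K⟮x⟯ F] (hxF₀ : x ∈ F₀)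
    (S : Finset K)
    (hSbr : ∀ (P : Place K F) (c : K), c ∉ S →
      0 < P.ord (x - algebraMap K F c) → P.ord (x - algebraMap K F c) = 1)
    (hSK₀ : ∀ c ∈ S, c ∈ K₀)
    (hunif : ∀ P : Place K F,
      (x ∉ P.toValuationSubring ∨ ∃ c ∈ S, 0 < P.ord (x - algebraMap K F c)) →
      ∃ t ∈ F₀, P.ord t = 1)
    (p : ℕ) (u : F) (hu₀ : u ∈ F₀) (hord : ∀ P : Place K F, (p : ℤ) ∣ P.ord u) :
    letI := algComap (A.comap (algebraMap K₀ K)) F₀
    ∀ V : ValuationSubring F₀,
      (∀ a : ↥(A.comap (algebraMap K₀ K)), a ≠ 0 →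
        (algebraMap ↥(A.comap (algebraMap K₀ K)) F₀ a)⁻¹ ∈ V) →
      IsDiscreteValuationRing V →
      ∃ t : F₀, t ≠ 0 ∧ (⟨u, hu₀⟩ : F₀) / t ^ p ∈ V ∧ ((⟨u, hu₀⟩ : F₀) / t ^ p)⁻¹ ∈ V := by
  intro V hV hdvr
  have := hdvr
  have hkV : ∀ a : K₀, algebraMap K₀ F₀ a ∈ V :=
    algebraMap_mem_of_inv_mem (A.comap (algebraMap K₀ K)) V hV
  exact hdiv_of_uniformiser (k := K₀) (K := K) x F₀
    (exists_uniformiser_mem_of_hunif K₀ F₀ x hK hxF₀ S hSbr hunif) p ⟨u, hu₀⟩ hord V hkV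
    (ne_top_of_isDiscreteValuationRing V)

end Leaves

end Fermat.Agent.S18.H24
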