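/-
S18 / core 2, leaf K2-N (place bridge, helper24): the last clause of `exists_descent`
(divisibility of the divisor of `u` on `F₀ / K₀`) in the vocabulary of `H19/Core2Defs` and
`H74/Setup`, from the generic lemmas of `H24/PlaceLift.lean`.

`exists_hdiv_finset`: a `Setup ℚ̄ A F O x` with `x` transcendental has a finite set `T ⊆ F`
(uniformisers at the poles of `x` and at the places over the branch set) such that for EVERY
subfield `K₀ ⊆ ℚ̄` and every `F₀ : IntermediateField K₀ F` containing `x` and `T`, the last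
conjunct of `exists_descent` holds verbatim for every `u ∈ F₀` with divisor divisible by `p`.
-/
import Mathlib
import Fermat.Agent.S18.H74.Setup
import Fermat.Agent.S18.H19.Core2Defs
import Fermat.Agent.S18.H24.PlaceLift

set_option autoImplicit false

open AlgebraicCurve IntermediateField Polynomial

noncomputable section

namespace Fermat.Agent.S18.H24

open Fermat.Agent.S18.H74 Fermat.Agent.S18.H19

local notation "Qb" => AlgebraicClosure ℚ

/-- The last conjunct of `exists_descent`, verbatim, from a finite set `T` of uniformisers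
contained in `F₀`. -/
theorem hdiv_verbatim (A : ValuationSubring Qb) {F : Type} [Field F] [Algebra Qb F] (x : F)
    [FiniteDimensional Qb⟮x⟯ F] (S : Finset Qb)
    (hbr : ∀ (P : Place Qb F) (c : Qb), c ∉ S →
      0 < P.ord (x - algebraMap Qb F c) → P.ord (x - algebraMap Qb F c) = 1)
    (T : Finset F)
    (hT : ∀ P : Place Qb F,
      (x ∉ P.toValuationSubring ∨ ∃ c ∈ S, 0 < P.ord (x - algebraMap Qb F c)) →
      ∃ t ∈ T, P.ord t = 1)
    (K₀ : IntermediateField ℚ Qb) (F₀ : IntermediateField K₀ F) (hx₀ : x ∈ F₀)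
    (hTF : ∀ t ∈ T, t ∈ F₀)
    (p : ℕ) (u : F) (hu₀ : u ∈ F₀) (hord : ∀ P : Place Qb F, (p : ℤ) ∣ P.ord u) :
    letI := algComap (A.comap (algebraMap K₀ Qb)) F₀
    ∀ V : ValuationSubring F₀,
      (∀ a : ↥(A.comap (algebraMap K₀ Qb)), a ≠ 0 →
        (algebraMap ↥(A.comap (algebraMap K₀ Qb)) F₀ a)⁻¹ ∈ V) →
      IsDiscreteValuationRing V →
      ∃ t : F₀, t ≠ 0 ∧ (⟨u, hu₀⟩ : F₀) / t ^ p ∈ V ∧ ((⟨u, hu₀⟩ : F₀) / t ^ p)⁻¹ ∈ V := by
  intro V hV hdvr
  have := hdvr
  have : Algebra.IsAlgebraic ℚ Qb := AlgebraicClosure.isAlgebraic ℚ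
  have : Algebra.IsAlgebraic K₀ Qb := Algebra.IsAlgebraic.tower_top (K := ℚ) K₀
  have hkV : ∀ a : K₀, algebraMap K₀ F₀ a ∈ V :=
    algebraMap_mem_of_inv_mem (A.comap (algebraMap K₀ Qb)) V hV
  exact hdiv_descent (k := K₀) (K := Qb) x S hbr F₀ hx₀ T hT hTF p ⟨u, hu₀⟩ hord V hkV
    (ne_top_of_isDiscreteValuationRing V)

/-- **K2-N, hdiv.**  The finite set `T` of uniformisers attached to a setup: any descent
`(K₀, F₀)` with `x ∈ F₀` and `T ⊆ F₀` satisfies the last conjunct of `exists_descent`. -/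
theorem exists_hdiv_finset (A : ValuationSubring Qb) {F : Type} [Field F] [Algebra Qb F]
    (O : ValuationSubring F) (x : F) (hx : Transcendental Qb x) (hS : Setup Qb A F O x) :
    ∃ T : Finset F, ∀ (K₀ : IntermediateField ℚ Qb) (F₀ : IntermediateField K₀ F)
      (_hx₀ : x ∈ F₀), (∀ t ∈ T, t ∈ F₀) →
      ∀ (p : ℕ) (u : F) (hu₀ : u ∈ F₀), (∀ P : Place Qb F, (p : ℤ) ∣ P.ord u) →
      letI := algComap (A.comap (algebraMap K₀ Qb)) F₀
      ∀ V : ValuationSubring F₀,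
        (∀ a : ↥(A.comap (algebraMap K₀ Qb)), a ≠ 0 →
          (algebraMap ↥(A.comap (algebraMap K₀ Qb)) F₀ a)⁻¹ ∈ V) →
        IsDiscreteValuationRing V →
        ∃ t : F₀, t ≠ 0 ∧ (⟨u, hu₀⟩ : F₀) / t ^ p ∈ V ∧ ((⟨u, hu₀⟩ : F₀) / t ^ p)⁻¹ ∈ V := by
  have := hS.finite
  obtain ⟨S, -, -, hbr⟩ := hS.branch
  obtain ⟨T, hT⟩ := exists_uniformiser_finset x hx S
  exact ⟨T, fun K₀ F₀ hx₀ hTF p u hu₀ hord =>
    hdiv_verbatim A x S hbr T hT K₀ F₀ hx₀ hTF p u hu₀ hord⟩

end Fermat.Agent.S18.H24
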